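/-
GATE-K / N7d (helper23): the `wAut`-SYMMETRIC chart `tS = j * j_q` of `F_N`, `q ∣ N`.

For the chart `j` the chart at infinity `B_∞ = {x | x integral over K[1/j]}` is not stable under
the Atkin–Lehner automorphism (`β`-old functions are integral over `K[1/j_q]`), so the pencil count
of N7d is run with `tS = j * j_q`:

* `ord_tS`, `ord_tS_nonneg_iff`, `ord_tS_neg_iff` : `tS`, `j`, `j_q` have the same polar support;
* `transcendental_tS`, `isGen_tS`;
* `regFin_tS_iff` : `RegFin K tS x ↔ RegFin K j x` (same finite chart);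
* `regFin_inv_tS_of_regFin_inv_j`, `regFin_inv_tS_of_regFin_inv_jq` : the chart at infinity of `tS`
  contains BOTH charts at infinity (`α`-old and `β`-old functions, `j_q / j ^ q`);
* `regFin_inv_tS_iff` : `RegFin K tS⁻¹ x ↔` `x` regular at every place that is not a zero of
  `j * j_q`;
* `regFin_inv_j_jq_div` : `j_q / j ^ q` is integral over `K[1/j]` (hence over `K[1/tS]`);
* `finrank_adjoin_tS` : `[F_N : K(tS)] = [F_N : K(j)] + [F_N : K(j_q)]`.
-/
import Fermat.Agent.GK.CuspSep.Poles
import Fermat.Agent.GJ.FF.PrincipalGen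

set_option autoImplicit false

noncomputable section

namespace Fermat.Agent.GK.SymChart

open ModularCurve AlgebraicCurve IntermediateField
open Fermat.Agent.S24 Fermat.Agent.S24_helper62 Fermat.Agent.GJ.J1
open Fermat.Agent.GJ.J1.PlaceLattice Fermat.Agent.GK.CuspSep
open Fermat.Agent.S24_helper76.CuspOrbit

variable (N : ℕ) [NeZero N] {q : ℕ} [NeZero q] (hqN : q ∣ N)

/-- the symmetric chart `j * j_q` -/
def tS : FN N := jF N * jdF N q hqN

theorem jF_ne_zero : jF N ≠ 0 := by
  have hj : Transcendental Kbar (jF N) := (isGen_jF N).transcendental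
  rintro h
  exact hj (h ▸ isAlgebraic_zero)

theorem jdF_ne_zero : jdF N q hqN ≠ 0 := by
  have hj : Transcendental Kbar (jdF N q hqN) := transcendental_jdF N q hqN
  rintro h
  exact hj (h ▸ isAlgebraic_zero)

theorem tS_ne_zero : tS N hqN ≠ 0 := mul_ne_zero (jF_ne_zero N) (jdF_ne_zero N hqN)

theorem ord_tS (v : Place Kbar (FN N)) :
    v.ord (tS N hqN) = v.ord (jF N) + v.ord (jdF N q hqN) :=
  Place.ord_mul v (jF_ne_zero N) (jdF_ne_zero N hqN)

variable (hq : q.Prime)

include hq in
theorem ord_tS_nonneg_iff (v : Place Kbar (FN N)) :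
    0 ≤ v.ord (tS N hqN) ↔ 0 ≤ v.ord (jF N) := by
  rw [ord_tS]
  constructor
  · intro h
    by_contra h'
    rw [not_le] at h'
    have := (ord_jq_neg_iff N hq hqN v).mpr h'
    omega
  · intro h
    have := ord_jdF_nonneg N q hqN v h
    omega

include hq in
theorem ord_tS_neg_iff (v : Place Kbar (FN N)) :
    v.ord (tS N hqN) < 0 ↔ v.ord (jF N) < 0 := by
  rw [← not_le, ← not_le, ord_tS_nonneg_iff N hqN hq]

/-- a place where `tS` has no zero is a place where `j` has no zero -/
theorem ord_j_nonpos_of_ord_tS_nonpos (v : Place Kbar (FN N)) (h : v.ord (tS N hqN) ≤ 0) :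
    v.ord (jF N) ≤ 0 := by
  by_contra h'
  rw [not_le] at h'
  have := ord_jdF_nonneg N q hqN v h'.le
  rw [ord_tS] at h
  omega

include hq in
/-- a place where `tS` has no zero is a place where `j_q` has no zero -/
theorem ord_jq_nonpos_of_ord_tS_nonpos (v : Place Kbar (FN N)) (h : v.ord (tS N hqN) ≤ 0) :
    v.ord (jdF N q hqN) ≤ 0 := by
  by_contra h'
  rw [not_le] at h'
  have h1 : 0 ≤ v.ord (jF N) := by
    by_contra h2
    rw [not_le] at h2
    have := (ord_jq_neg_iff N hq hqN v).mpr h2
    omega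
  rw [ord_tS] at h
  omega

/-- `tS = j * j_q` has a pole of order `1 + q` at `q = 0`, hence is transcendental. -/
theorem transcendental_tS : Transcendental Kbar (tS N hqN) := by
  have h : Transcendental Kbar ((modularFunctionFieldBar N).val (tS N hqN)) := by
    show Transcendental Kbar ((tS N hqN : FN N) : LaurentSeries Kbar)
    have hcoe : ((tS N hqN : FN N) : LaurentSeries Kbar)
        = ((jF N : FN N) : LaurentSeries Kbar) * ((jdF N q hqN : FN N) : LaurentSeries Kbar) :=
      rfl
    rw [hcoe, Degree.coe_jF', Degree.coe_jdF, Degree.jdSeries_eq]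
    apply Val.transcendental_of_order_neg
    have h1 : (jqModC Kbar).order = -1 := by
      have := order_qExpand_jqModC 1 Kbar
      rwa [qExpand_one_apply, Nat.cast_one] at this
    have h2 : (qExpand Kbar q (jqModC Kbar)).order = -(q : ℤ) := order_qExpand_jqModC q Kbar
    have hne1 : jqModC Kbar ≠ 0 := by
      intro h0
      rw [h0, HahnSeries.order_zero] at h1
      omega
    have hne2 : qExpand Kbar q (jqModC Kbar) ≠ 0 := by
      intro h0
      rw [h0, HahnSeries.order_zero] at h2
      have : 0 < q := NeZero.pos q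
      omega
    rw [HahnSeries.order_mul hne1 hne2, h1, h2]
    have : 0 < q := NeZero.pos q
    omega
  intro halg
  exact h (IsAlgebraic.algHom (modularFunctionFieldBar N).val halg)

theorem isGen_tS : IsGen Kbar (tS N hqN) :=
  have := isGen_jF N
  IsGen.of_transcendental (jF N) (transcendental_tS N hqN)

include hq in
/-- **same finite chart**: integrality over `K[j * j_q]` is integrality over `K[j]`. -/
theorem regFin_tS_iff (x : FN N) : RegFin Kbar (tS N hqN) x ↔ RegFin Kbar (jF N) x := by
  have := isGen_jF N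
  rw [regFin_iff_ord (jF N) (tS N hqN) x, regFin_iff_ord (jF N) (jF N) x]
  constructor
  · intro h v hv
    exact h v ((ord_tS_nonneg_iff N hqN hq v).mpr hv)
  · intro h v hv
    exact h v ((ord_tS_nonneg_iff N hqN hq v).mp hv)

include hq in
/-- `RegFin K tS⁻¹ x` iff `x` is regular at every place which is not a zero of `j * j_q`. -/
theorem regFin_inv_tS_iff (x : FN N) :
    RegFin Kbar (tS N hqN)⁻¹ x ↔
      ∀ v : Place Kbar (FN N), v.ord (jF N) ≤ 0 → v.ord (jdF N q hqN) ≤ 0 → 0 ≤ v.ord x := by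
  have := isGen_jF N
  rw [regFin_iff_ord (jF N) (tS N hqN)⁻¹ x]
  constructor
  · intro h v h1 h2
    apply h v
    rw [Place.ord_inv, ord_tS]
    omega
  · intro h v hv
    rw [Place.ord_inv] at hv
    have hv' : v.ord (tS N hqN) ≤ 0 := by omega
    exact h v (ord_j_nonpos_of_ord_tS_nonpos N hqN v hv')
      (ord_jq_nonpos_of_ord_tS_nonpos N hqN hq v hv')

include hq in
/-- **the chart at infinity of `tS` contains the chart at infinity of `j`** (`α`-old functions). -/
theorem regFin_inv_tS_of_regFin_inv_j {x : FN N} (h : RegFin Kbar (jF N)⁻¹ x) :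
    RegFin Kbar (tS N hqN)⁻¹ x := by
  have := isGen_jF N
  rw [regFin_iff_ord (jF N) (jF N)⁻¹ x] at h
  rw [regFin_inv_tS_iff N hqN hq]
  intro v h1 _
  apply h v
  rw [Place.ord_inv]
  omega

include hq in
/-- **the chart at infinity of `tS` contains the chart at infinity of `j_q`** (`β`-old functions). -/
theorem regFin_inv_tS_of_regFin_inv_jq {x : FN N} (h : RegFin Kbar (jdF N q hqN)⁻¹ x) :
    RegFin Kbar (tS N hqN)⁻¹ x := by
  have := isGen_jF N
  rw [regFin_iff_ord (jF N) (jdF N q hqN)⁻¹ x] at h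
  rw [regFin_inv_tS_iff N hqN hq]
  intro v _ h2
  apply h v
  rw [Place.ord_inv]
  omega

include hq in
/-- `j_q / j ^ q` is integral over `K[1/j]` (the K-CUSP element; its reductions are
`(1, (1/j~) ^ (q² - 1))`). -/
theorem regFin_inv_j_jq_div :
    RegFin Kbar (jF N)⁻¹ (jdF N q hqN * ((jF N)⁻¹) ^ q) := by
  have := isGen_jF N
  rw [regFin_iff_ord (jF N) (jF N)⁻¹]
  intro v hv
  rw [Place.ord_inv] at hv
  have hq0 : (0 : ℤ) < q := by exact_mod_cast hq.pos
  have hinv0 : (jF N)⁻¹ ≠ 0 := inv_ne_zero (jF_ne_zero N)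
  rw [Place.ord_mul v (jdF_ne_zero N hqN) (pow_ne_zero _ hinv0), ord_pow' v, Place.ord_inv]
  rcases lt_or_eq_of_le (show v.ord (jF N) ≤ 0 by omega) with hlt | heq
  · rcases ord_jq_dichotomy N hq hqN v hlt with h1 | h1
    · rw [h1]; ring_nf; exact le_refl _
    · have hjq : v.ord (jdF N q hqN) < 0 := (ord_jq_neg_iff N hq hqN v).mpr hlt
      rw [h1]
      have h2 : (1 : ℤ) ≤ (q : ℤ) * q := by nlinarith
      nlinarith
  · rw [heq]
    have := ord_jdF_nonneg N q hqN v heq.ge
    simpa using this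

include hq in
/-- `j_q / j ^ q` is integral over `K[1/tS]`. -/
theorem regFin_inv_tS_jq_div :
    RegFin Kbar (tS N hqN)⁻¹ (jdF N q hqN * ((jF N)⁻¹) ^ q) :=
  regFin_inv_tS_of_regFin_inv_j N hqN hq (regFin_inv_j_jq_div N hqN hq)

include hq in
/-- **degree of the symmetric chart**: `[F_N : K(j j_q)] = [F_N : K(j)] + [F_N : K(j_q)]`. -/
theorem finrank_adjoin_tS :
    Module.finrank Kbar⟮tS N hqN⟯ (FN N)
      = Module.finrank Kbar⟮jF N⟯ (FN N) + Module.finrank Kbar⟮jdF N q hqN⟯ (FN N) := by
  have := isGen_jF N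
  have hj : Transcendental Kbar (jF N) := (isGen_jF N).transcendental
  have hjq : Transcendental Kbar (jdF N q hqN) := transcendental_jdF N q hqN
  have : HasPrincipalDivisors Kbar (FN N) :=
    Fermat.Agent.GJ.FF.PrincipalOf.hasPrincipalDivisors_gen (jF N)
  have h1 := Fermat.Agent.GJ.FF.PrincipalOf.degree_eq_finrank_of_poles (K := Kbar) (jF N) hj
    (Fermat.Agent.RR.Bound.poleDiv Kbar (jF N))
    (fun v => Fermat.Agent.RR.Bound.poleDiv_apply (jF_ne_zero N) v)
  have h2 := Fermat.Agent.GJ.FF.PrincipalOf.degree_eq_finrank_of_poles (K := Kbar) (jF N) hjq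
    (Fermat.Agent.RR.Bound.poleDiv Kbar (jdF N q hqN))
    (fun v => Fermat.Agent.RR.Bound.poleDiv_apply (jdF_ne_zero N hqN) v)
  have h3 := Fermat.Agent.GJ.FF.PrincipalOf.degree_eq_finrank_of_poles (K := Kbar) (jF N)
    (transcendental_tS N hqN)
    (Fermat.Agent.RR.Bound.poleDiv Kbar (jF N) + Fermat.Agent.RR.Bound.poleDiv Kbar (jdF N q hqN))
    (fun v => by
      rw [Finsupp.add_apply, Fermat.Agent.RR.Bound.poleDiv_apply (jF_ne_zero N) v,
        Fermat.Agent.RR.Bound.poleDiv_apply (jdF_ne_zero N hqN) v, ord_tS]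
      rcases lt_or_ge (v.ord (jF N)) 0 with hlt | hge
      · have := (ord_jq_neg_iff N hq hqN v).mpr hlt
        rw [max_eq_left (by omega), max_eq_left (by omega), max_eq_left (by omega)]
        ring
      · have := ord_jdF_nonneg N q hqN v hge
        rw [max_eq_right (by omega), max_eq_right (by omega), max_eq_right (by omega)]
        ring)
  rw [map_add, h1, h2] at h3
  exact_mod_cast h3.symm

end Fermat.Agent.GK.SymChart
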