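/-
GATE-K / N7c (K-CUSP), file 1 (helper16): the explicit function separating the two components of
the special fibre of `X₀(qN')` at the cusps.

  `sepS R q = (Δ(q)/Δ(q^q)) · j^{-(q-1)} = 1 + O(q)`     (over any commutative ring `R`).

* it is a power series with constant term `1` (lowest term `q^0`, coefficient `1`);
* in characteristic `q` it equals `E₄^{-3(q-1)}`;
* its Fricke partner `sepW R q = (Δ(q^q)/Δ(q)) · j(q^q)^{-(q-1)}` has lowest term `q^{q²-1}`:
  `W_q (sepS) = q^{12} · sepW`, so the second Gauss valuation of `sepS` is `12 v(q) > 0`.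
-/
import Fermat.Agent.S28.UnitOrders
import Fermat.Agent.S28.PolyDescentInv
import Fermat.Agent.S28.CuspSeries
import Fermat.Agent.GJ.J3.QSeries

set_option autoImplicit false

noncomputable section

namespace Fermat.Agent.GK.Cusp

open ModularCurve Fermat.Agent.S28 Fermat.Agent.S28.PolyDescent

section Defs

variable (R : Type*) [CommRing R] (q : ℕ) [NeZero q]

/-- `(Δ(q)/Δ(q^q)) · j^{-(q-1)}` -/
def sepS : LaurentSeries R := uInvS R q * jInvS R ^ (q - 1)

/-- the inverse `(Δ(q^q)/Δ(q)) · j^{q-1}` of `sepS` -/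
def sepSInv : LaurentSeries R := uS R q * jqModC R ^ (q - 1)

/-- the Fricke partner `(Δ(q^q)/Δ(q)) · j(q^q)^{-(q-1)}` -/
def sepW : LaurentSeries R := uS R q * qExpand R q (jInvS R) ^ (q - 1)

/-- the inverse of the Fricke partner -/
def sepWInv : LaurentSeries R := uInvS R q * qExpand R q (jqModC R) ^ (q - 1)

theorem sepS_mul_sepSInv : sepS R q * sepSInv R q = 1 := by
  rw [sepS, sepSInv, mul_mul_mul_comm, mul_comm (uInvS R q), uS_mul_uInvS, one_mul, ← mul_pow,
    jInvS_mul_jqModC, one_pow]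

theorem sepSInv_mul_sepS : sepSInv R q * sepS R q = 1 := by
  rw [mul_comm, sepS_mul_sepSInv]

theorem sepW_mul_sepWInv : sepW R q * sepWInv R q = 1 := by
  rw [sepW, sepWInv, mul_mul_mul_comm, uS_mul_uInvS, one_mul, ← mul_pow, ← map_mul,
    jInvS_mul_jqModC, map_one, one_pow]

theorem sepWInv_mul_sepW : sepWInv R q * sepW R q = 1 := by
  rw [mul_comm, sepW_mul_sepWInv]

variable {R} in
theorem coeffMap_sepS {S : Type*} [CommRing S] (f : R →+* S) :
    coeffMap f (sepS R q) = sepS S q := by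
  rw [sepS, map_mul, map_pow, coeffMap_uInvS, coeffMap_jInvS, sepS]

variable {R} in
theorem coeffMap_sepSInv {S : Type*} [CommRing S] (f : R →+* S) :
    coeffMap f (sepSInv R q) = sepSInv S q := by
  rw [sepSInv, map_mul, map_pow, coeffMap_uS, coeffMap_jqModC, sepSInv]

variable {R} in
theorem coeffMap_sepW {S : Type*} [CommRing S] (f : R →+* S) :
    coeffMap f (sepW R q) = sepW S q := by
  rw [sepW, map_mul, map_pow, coeffMap_uS, coeffMap_qExpand, coeffMap_jInvS, sepW]

variable {R} in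
theorem coeffMap_sepWInv {S : Type*} [CommRing S] (f : R →+* S) :
    coeffMap f (sepWInv R q) = sepWInv S q := by
  rw [sepWInv, map_mul, map_pow, coeffMap_uInvS, coeffMap_qExpand, coeffMap_jqModC, sepWInv]

/-! ### lowest terms -/

theorem hasLead_jInvS : HasLead (jInvS R) 1 1 :=
  hasLead_single_mul_ofPowerSeries R 1 _ constantCoeff_jNumInv

theorem hasLead_uS : HasLead (uS R q) ((q : ℤ) - 1) 1 := by
  have h := ((hasLead_deltaS R).qExpand q).mul (hasLead_deltaInvS R)
  rw [uS]
  exact h.congr (by ring) (one_mul 1)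

theorem hasLead_uInvS : HasLead (uInvS R q) (1 - (q : ℤ)) 1 := by
  have h := ((hasLead_deltaInvS R).qExpand q).mul (hasLead_deltaS R)
  rw [uInvS]
  exact h.congr (by ring) (one_mul 1)

theorem cast_pred : ((q - 1 : ℕ) : ℤ) = (q : ℤ) - 1 := by
  have h : 1 ≤ q := Nat.one_le_iff_ne_zero.mpr (NeZero.ne q)
  push_cast [Nat.cast_sub h]
  ring

/-- `sepS = 1 + O(q)` -/
theorem hasLead_sepS : HasLead (sepS R q) 0 1 := by
  have h := (hasLead_uInvS R q).mul ((hasLead_jInvS R).pow (q - 1))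
  rw [sepS]
  refine h.congr ?_ (by simp)
  rw [cast_pred]
  ring

/-- `sepSInv = 1 + O(q)` -/
theorem hasLead_sepSInv : HasLead (sepSInv R q) 0 1 := by
  have h := (hasLead_uS R q).mul ((hasLead_jqModC R).pow (q - 1))
  rw [sepSInv]
  refine h.congr ?_ (by simp)
  rw [cast_pred]
  ring

/-- `sepW = q^{q²-1} (1 + O(q))` -/
theorem hasLead_sepW : HasLead (sepW R q) ((q : ℤ) ^ 2 - 1) 1 := by
  have h := (hasLead_uS R q).mul ((((hasLead_jInvS R).qExpand q)).pow (q - 1))
  rw [sepW]
  refine h.congr ?_ (by simp)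
  rw [cast_pred]
  ring

/-- `sepWInv = q^{-(q²-1)} (1 + O(q))` -/
theorem hasLead_sepWInv : HasLead (sepWInv R q) (1 - (q : ℤ) ^ 2) 1 := by
  have h := (hasLead_uInvS R q).mul ((((hasLead_jqModC R).qExpand q)).pow (q - 1))
  rw [sepWInv]
  refine h.congr ?_ (by simp)
  rw [cast_pred]
  ring

end Defs


section PS
variable {R : Type*} [CommRing R]

/-- a Laurent series without negative terms is a power series -/
theorem eq_ofPowerSeries_of_hasLead {x : LaurentSeries R} {a : R} (hx : HasLead x 0 a) :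
    x = HahnSeries.ofPowerSeries ℤ R (PowerSeries.mk fun n => x.coeff n) := by
  ext n
  rcases le_or_gt 0 n with hn | hn
  · lift n to ℕ using hn
    rw [HahnSeries.ofPowerSeries_apply_coeff, PowerSeries.coeff_mk]
  · rw [hx.2 n hn, ofPowerSeries_coeff_of_neg _ hn]

end PS

section Pow

variable {R : Type*} [CommRing R] (q : ℕ) [NeZero q]

theorem pow_pred_mul (x : LaurentSeries R) : x ^ q = x ^ (q - 1) * x := by
  have h : 1 ≤ q := Nat.one_le_iff_ne_zero.mpr (NeZero.ne q)
  rw [← pow_succ, Nat.sub_add_cancel h]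

end Pow

section CharQ

variable (R : Type*) [CommRing R] (q : ℕ) [Fact q.Prime] [NeZero q] [CharP R q]

theorem qExpand_deltaInvS_char : qExpand R q (deltaInvS R) = deltaInvS R ^ q :=
  Fermat.Agent.GJ.J3.QS.qExpand_char_of_fixed q (coeffMap_deltaInvS (frobenius R q))

theorem qExpand_deltaS_char : qExpand R q (deltaS R) = deltaS R ^ q :=
  Fermat.Agent.GJ.J3.QS.qExpand_char_of_fixed q (coeffMap_deltaS (frobenius R q))

theorem qExpand_jInvS_char : qExpand R q (jInvS R) = jInvS R ^ q :=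
  Fermat.Agent.GJ.J3.QS.qExpand_char_of_fixed q (coeffMap_jInvS (frobenius R q))

/-- in characteristic `q`: `Δ(q)/Δ(q^q) = Δ^{-(q-1)}` -/
theorem uInvS_char : uInvS R q = deltaInvS R ^ (q - 1) := by
  rw [uInvS, qExpand_deltaInvS_char, pow_pred_mul q, mul_assoc, deltaInvS_mul_deltaS, mul_one]

/-- in characteristic `q`: `Δ(q^q)/Δ(q) = Δ^{q-1}` -/
theorem uS_char : uS R q = deltaS R ^ (q - 1) := by
  rw [uS, qExpand_deltaS_char, pow_pred_mul q, mul_assoc, deltaS_mul_deltaInvS, mul_one]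

theorem e4S_cube_eq : e4S R ^ 3 = jqModC R * deltaS R := by
  rw [jqModC_eq_e4S_deltaInvS, mul_assoc, deltaInvS_mul_deltaS, mul_one]

/-- in characteristic `q`: `sepS = E₄^{-3(q-1)}` -/
theorem sepS_mul_e4S_char : sepS R q * (e4S R ^ 3) ^ (q - 1) = 1 := by
  rw [sepS, uInvS_char, e4S_cube_eq, ← mul_pow, ← mul_pow]
  have h : deltaInvS R * jInvS R * (jqModC R * deltaS R) = 1 := by
    calc deltaInvS R * jInvS R * (jqModC R * deltaS R)
        = (deltaInvS R * deltaS R) * (jInvS R * jqModC R) := by ring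
      _ = 1 := by rw [deltaInvS_mul_deltaS, jInvS_mul_jqModC, mul_one]
  rw [h, one_pow]

/-- in characteristic `q`: `sepSInv = E₄^{3(q-1)}` -/
theorem sepSInv_char : sepSInv R q = (e4S R ^ 3) ^ (q - 1) := by
  rw [sepSInv, uS_char, e4S_cube_eq, ← mul_pow, mul_comm]

/-- in characteristic `q`: `sepW = sepSInv^{-q} · …`, more precisely `sepW = Δ^{q-1} j^{-q(q-1)}` -/
theorem sepW_char : sepW R q = deltaS R ^ (q - 1) * (jInvS R ^ q) ^ (q - 1) := by
  rw [sepW, uS_char, qExpand_jInvS_char]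

end CharQ


end Fermat.Agent.GK.Cusp
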