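import Fermat.Agent.GK.Nodal.FrobGlue

/-!
# GATE-K / N7c K-CUSP, abstract half in the `FrobGlue` language (helper16)

`C` a commutative `k`-algebra, `Ψ : C →ₐ[k] C` (chart at infinity: `C = C_∞` the integral closure
of `k[t]`, `t = 1/j~`, in the residue function field, `Ψ t = t ^ q`), `J'` the glueing ideal of
`R~ = gluedAlg Ψ J'` (helper29, `exists_ideal_eq_gluedAlg`).

**No cusp is a node.**  If `R~` contains ONE element `z` whose difference `z.1 - Ψ z.2` is `≡ 1`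
modulo `t` — e.g. `red (j_q / j ^ q) = (1, t ^ (q² - 1))`, or the separators
`(0, 1 - t ^ m)`, `(1 - t ^ m, 0)` — then `J'` is comaximal with `t`:
`J' ⊔ (t) = ⊤`, no maximal ideal containing `J'` (a node) contains `t` (is a cusp), and the
conductor of `R~` in `C × C` contains `(1, 1) - (Ψ t, t) ^ m`, an element `≡ (1, 1)` at the cusps.
-/

set_option autoImplicit false

namespace Fermat.Agent.GK.Cusp

open Fermat.Agent.GK.FrobGlue

variable {k C : Type*} [Field k] [CommRing C] [Algebra k C] (Ψ : C →ₐ[k] C)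

/-- an element of the glueing whose difference is `≡ 1` modulo `t` makes `J'` comaximal with
`t`. -/
theorem sup_span_eq_top_of_mem {J' : Ideal C} {t : C} {z : C × C} (hz : z ∈ gluedAlg Ψ J')
    (hzt : z.1 - Ψ z.2 - 1 ∈ Ideal.span {t}) : J' ⊔ Ideal.span {t} = ⊤ := by
  rw [Ideal.eq_top_iff_one]
  have h1 : z.1 - Ψ z.2 ∈ J' ⊔ Ideal.span {t} := Ideal.mem_sup_left hz
  have h2 : z.1 - Ψ z.2 - 1 ∈ J' ⊔ Ideal.span {t} := Ideal.mem_sup_right hzt
  have := (J' ⊔ Ideal.span {t}).sub_mem h1 h2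
  simpa using this

/-- **K-CUSP, node form**: with such an element, no node contains `t`. -/
theorem not_mem_of_mem_nodes {J' : Ideal C} {t : C} {z : C × C} (hz : z ∈ gluedAlg Ψ J')
    (hzt : z.1 - Ψ z.2 - 1 ∈ Ideal.span {t}) {P : Ideal C} (hP : P ∈ nodes J') : t ∉ P := by
  intro ht
  have hle : J' ⊔ Ideal.span {t} ≤ P :=
    sup_le hP.2 ((Ideal.span_singleton_le_iff_mem (I := P)).2 ht)
  rw [sup_span_eq_top_of_mem Ψ hz hzt, top_le_iff] at hle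
  exact hP.1.ne_top hle

/-- no ideal `P ≠ ⊤` containing `t` contains `J'` (`P` need not be maximal). -/
theorem not_le_of_mem {J' : Ideal C} {t : C} {z : C × C} (hz : z ∈ gluedAlg Ψ J')
    (hzt : z.1 - Ψ z.2 - 1 ∈ Ideal.span {t}) {P : Ideal C} (hP : P ≠ ⊤) (ht : t ∈ P) :
    ¬ J' ≤ P := by
  intro hJ
  have hle : J' ⊔ Ideal.span {t} ≤ P :=
    sup_le hJ ((Ideal.span_singleton_le_iff_mem (I := P)).2 ht)
  rw [sup_span_eq_top_of_mem Ψ hz hzt, top_le_iff] at hle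
  exact hP hle

lemma pow_mem_span_of_mem {t x : C} (hx : x ∈ Ideal.span {t}) {m : ℕ} (hm : m ≠ 0) :
    x ^ m ∈ Ideal.span {t} := by
  obtain ⟨n, rfl⟩ := Nat.exists_eq_succ_of_ne_zero hm
  rw [pow_succ]
  exact Ideal.mul_mem_left _ _ hx

/-! ### the three concrete witnesses -/

section Witness

variable {J' : Ideal C} {t : C} {m : ℕ}

/-- `red (j_q / j ^ q) = (1, t ^ m)`, `m = q² - 1`: difference `1 - (Ψ t) ^ m`. -/
lemma one_pow_sub_one_mem (hΨt : Ψ t ∈ Ideal.span {t}) (hm : m ≠ 0) :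
    ((1 : C), t ^ m).1 - Ψ ((1 : C), t ^ m).2 - 1 ∈ Ideal.span {t} := by
  have : ((1 : C), t ^ m).1 - Ψ ((1 : C), t ^ m).2 - 1 = -(Ψ t) ^ m := by
    simp only [map_pow]
    ring
  rw [this]
  exact (Ideal.span {t}).neg_mem (pow_mem_span_of_mem hΨt hm)

/-- the separator `(0, -(1 - t ^ m))`, i.e. `(0, t ^ m - 1)`: difference `1 - (Ψ t) ^ m`. -/
lemma zero_sep_sub_one_mem (hΨt : Ψ t ∈ Ideal.span {t}) (hm : m ≠ 0) :
    ((0 : C), t ^ m - 1).1 - Ψ ((0 : C), t ^ m - 1).2 - 1 ∈ Ideal.span {t} := by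
  have : ((0 : C), t ^ m - 1).1 - Ψ ((0 : C), t ^ m - 1).2 - 1 = -(Ψ t) ^ m := by
    simp only [map_pow, map_sub, map_one]
    ring
  rw [this]
  exact (Ideal.span {t}).neg_mem (pow_mem_span_of_mem hΨt hm)

/-- the separator `(1 - t ^ m, 0)`: difference `1 - t ^ m` (no hypothesis on `Ψ`). -/
lemma sep_zero_sub_one_mem (hm : m ≠ 0) :
    ((1 - t ^ m, (0 : C)) : C × C).1 - Ψ ((1 - t ^ m, (0 : C)) : C × C).2 - 1 ∈
      Ideal.span {t} := by
  have : ((1 - t ^ m, (0 : C)) : C × C).1 - Ψ ((1 - t ^ m, (0 : C)) : C × C).2 - 1 = -t ^ m := by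
    simp only [map_zero]
    ring
  rw [this]
  exact (Ideal.span {t}).neg_mem (pow_mem_span_of_mem (Ideal.mem_span_singleton_self t) hm)

/-- **K-CUSP from `red (j_q / j ^ q) = (1, t ^ m)`** (helper31 2196 (i)). -/
theorem not_mem_of_mem_nodes_of_one_pow (hΨt : Ψ t ∈ Ideal.span {t}) (hm : m ≠ 0)
    (hz : ((1 : C), t ^ m) ∈ gluedAlg Ψ J') {P : Ideal C} (hP : P ∈ nodes J') : t ∉ P :=
  not_mem_of_mem_nodes Ψ hz (one_pow_sub_one_mem Ψ hΨt hm) hP

/-- **K-CUSP from the separator `(0, 1 - t ^ m)`** (helper87's `e = 1 - j_q / j ^ q`). -/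
theorem not_mem_of_mem_nodes_of_zero_sep (hΨt : Ψ t ∈ Ideal.span {t}) (hm : m ≠ 0)
    (hz : ((0 : C), 1 - t ^ m) ∈ gluedAlg Ψ J') {P : Ideal C} (hP : P ∈ nodes J') : t ∉ P := by
  have hz' : ((0 : C), t ^ m - 1) ∈ gluedAlg Ψ J' := by
    have := (gluedAlg Ψ J').neg_mem hz
    simpa using this
  exact not_mem_of_mem_nodes Ψ hz' (zero_sep_sub_one_mem Ψ hΨt hm) hP

/-- **K-CUSP from the separator `(1 - t ^ m, 0)`** (the Fricke partner `e' = wAut e`). -/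
theorem not_mem_of_mem_nodes_of_sep_zero (hm : m ≠ 0)
    (hz : ((1 - t ^ m, (0 : C)) : C × C) ∈ gluedAlg Ψ J') {P : Ideal C} (hP : P ∈ nodes J') :
    t ∉ P :=
  not_mem_of_mem_nodes Ψ hz (sep_zero_sub_one_mem Ψ hm) hP

/-- `Ψ t = t ^ q`, `q ≠ 0` gives `Ψ t ∈ (t)`. -/
lemma map_mem_span_of_eq_pow {q : ℕ} (hq : q ≠ 0) (h : Ψ t = t ^ q) : Ψ t ∈ Ideal.span {t} := by
  rw [h]
  exact pow_mem_span_of_mem (Ideal.mem_span_singleton_self t) hq

end Witness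

/-! ### the conductor at the cusps -/

/-- if `d ∈ J'` then `(d, 0) * z ∈ R~` for every `z : C × C`. -/
lemma mk_zero_mul_mem {J' : Ideal C} {d : C} (hd : d ∈ J') (z : C × C) :
    ((d, 0) : C × C) * z ∈ gluedAlg Ψ J' := by
  rw [mem_gluedAlg]
  simpa using J'.mul_mem_right z.1 hd

/-- if `Ψ b ∈ J'` then `(0, b) * z ∈ R~` for every `z : C × C`. -/
lemma zero_mk_mul_mem {J' : Ideal C} {b : C} (hb : Ψ b ∈ J') (z : C × C) :
    ((0, b) : C × C) * z ∈ gluedAlg Ψ J' := by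
  rw [mem_gluedAlg]
  have := J'.neg_mem (J'.mul_mem_right (Ψ z.2) hb)
  simpa [map_mul] using this

/-- **the conductor contains an element `≡ (1, 1)` at the cusps**: from
`(1, t ^ m) ∈ R~`, every `((1, 1) - (Ψ t, t) ^ m) * z`, `z : C × C` ARBITRARY, lies in `R~`.
So after inverting an element `≡ 1 mod t` the ring `R~` IS `C × C`: the two components do not meet
over `t = 0`. -/
theorem conductor_mul_mem {J' : Ideal C} {t : C} {m : ℕ}
    (hz : ((1 : C), t ^ m) ∈ gluedAlg Ψ J') (z : C × C) :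
    ((1 - (Ψ t) ^ m, 1 - t ^ m) : C × C) * z ∈ gluedAlg Ψ J' := by
  have hd : 1 - (Ψ t) ^ m ∈ J' := by
    have := (mem_gluedAlg Ψ).1 hz
    simpa [map_pow] using this
  have h1 := mk_zero_mul_mem Ψ hd z
  have h2 : Ψ (1 - t ^ m) ∈ J' := by simpa [map_sub, map_pow] using hd
  have h3 := zero_mk_mul_mem Ψ h2 z
  have : ((1 - (Ψ t) ^ m, 1 - t ^ m) : C × C) * z
      = ((1 - (Ψ t) ^ m, 0) : C × C) * z + ((0, 1 - t ^ m) : C × C) * z := by
    ext <;> simp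
  rw [this]
  exact (gluedAlg Ψ J').add_mem h1 h3

/-! ### subalgebra form: `R~ ⊇` old functions `+` one separating element -/

/-- **K-CUSP, assembled with helper29's structure theorem**: a subalgebra `R ≤ C × C` containing
the two graphs and ONE element with difference `≡ 1 mod t` is a glueing along an ideal
`J' ≥ fixIdeal Ψ` comaximal with `t`, none of whose nodes is a cusp. -/
theorem exists_ideal_eq_gluedAlg_cusp (R : Subalgebra k (C × C))
    (h1 : ∀ a, (a, Ψ a) ∈ R) (h2 : ∀ b, (Ψ b, b) ∈ R) {t : C} {z : C × C} (hz : z ∈ R)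
    (hzt : z.1 - Ψ z.2 - 1 ∈ Ideal.span {t}) :
    ∃ J' : Ideal C, fixIdeal Ψ ≤ J' ∧ R = gluedAlg Ψ J' ∧ J' ⊔ Ideal.span {t} = ⊤ ∧
      ∀ P ∈ nodes J', t ∉ P := by
  obtain ⟨J', hJ, hR⟩ := exists_ideal_eq_gluedAlg Ψ R h1 h2
  have hz' : z ∈ gluedAlg Ψ J' := hR ▸ hz
  exact ⟨J', hJ, hR, sup_span_eq_top_of_mem Ψ hz' hzt,
    fun P hP => not_mem_of_mem_nodes Ψ hz' hzt hP⟩

/-- the same with the concrete witness `(1, t ^ m)`, `Ψ t = t ^ q`. -/
theorem exists_ideal_eq_gluedAlg_cusp_pow (R : Subalgebra k (C × C))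
    (h1 : ∀ a, (a, Ψ a) ∈ R) (h2 : ∀ b, (Ψ b, b) ∈ R) {t : C} {q m : ℕ} (hq : q ≠ 0)
    (hm : m ≠ 0) (hΨt : Ψ t = t ^ q) (hz : ((1 : C), t ^ m) ∈ R) :
    ∃ J' : Ideal C, fixIdeal Ψ ≤ J' ∧ R = gluedAlg Ψ J' ∧ J' ⊔ Ideal.span {t} = ⊤ ∧
      ∀ P ∈ nodes J', t ∉ P :=
  exists_ideal_eq_gluedAlg_cusp Ψ R h1 h2 hz
    (one_pow_sub_one_mem Ψ (map_mem_span_of_eq_pow Ψ hq hΨt) hm)

/-! ### glueing at a node away from the cusps: the twist by `t ^ n` -/

/-- at a node `P` (which contains `fixIdeal Ψ`), `t ^ n ≡ Ψ (Ψ t) ^ n`; so for `(a, b)` and the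
twisted pair `(a * t ^ n, b * (Ψ t) ^ n)` (`= z / s₁ ^ n`, `s₁ = (j~, j~ ^ q)`), the glueing
conditions at `P` differ by the factor `t ^ n`, a unit at `P` when `t ∉ P`. -/
theorem twist_sub_mem_iff {J' : Ideal C} (hJ : fixIdeal Ψ ≤ J') {P : Ideal C} (hP : P ∈ nodes J')
    {t : C} (ht : t ∉ P) (n : ℕ) (a b : C) :
    a * t ^ n - Ψ (b * (Ψ t) ^ n) ∈ P ↔ a - Ψ b ∈ P := by
  have hprime : P.IsPrime := hP.1.isPrime
  have hfix : t - Ψ (Ψ t) ∈ P := hP.2 (hJ (sub_mem_fixIdeal Ψ t))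
  have hpow : t ^ n - (Ψ (Ψ t)) ^ n ∈ P := by
    obtain ⟨c, hc⟩ := sub_dvd_pow_sub_pow t (Ψ (Ψ t)) n
    rw [hc]
    exact P.mul_mem_right _ hfix
  have key : a * t ^ n - Ψ (b * (Ψ t) ^ n)
      = t ^ n * (a - Ψ b) + Ψ b * (t ^ n - (Ψ (Ψ t)) ^ n) := by
    simp only [map_mul, map_pow]
    ring
  rw [key]
  constructor
  · intro h
    have h' : t ^ n * (a - Ψ b) ∈ P := by
      have := P.sub_mem h (P.mul_mem_left (Ψ b) hpow)
      simpa using this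
    rcases hprime.mem_or_mem h' with h'' | h''
    · exact absurd (hprime.mem_of_pow_mem n h'') ht
    · exact h''
  · intro h
    exact P.add_mem (P.mul_mem_left _ h) (P.mul_mem_left _ hpow)

end Fermat.Agent.GK.Cusp
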