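import Fermat.Agent.GK.Cusp.CuspNode

/-!
# GATE-K / N7c K-CUSP, semilocal form (helper16)

In the semilocal ring `C_∞` of functions regular at ALL cusps, `t = 1/j~` lies in the Jacobson
radical.  Then a subalgebra `R ≤ C_∞ × C_∞` containing the two graphs of `Ψ` and ONE element with
difference `≡ 1 mod t` (e.g. `(1, t ^ (q² - 1))`) is EVERYTHING: the glueing ideal is `⊤`.
(This is the step `Rloc = Cinf × Cinf` of helper23's (F5), board 2297.)
-/

set_option autoImplicit false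

namespace Fermat.Agent.GK.Cusp

open Fermat.Agent.GK.FrobGlue

variable {k C : Type*} [Field k] [CommRing C] [Algebra k C] (Ψ : C →ₐ[k] C)

/-- an ideal comaximal with an element of the Jacobson radical is `⊤`. -/
lemma eq_top_of_sup_span_eq_top {J' : Ideal C} {t : C} (ht : t ∈ Ideal.jacobson (⊥ : Ideal C))
    (h : J' ⊔ Ideal.span {t} = ⊤) : J' = ⊤ := by
  have h1 : (1 : C) ∈ J' ⊔ Ideal.span {t} := h ▸ Submodule.mem_top
  obtain ⟨a, ha, b, hb, hab⟩ := Submodule.mem_sup.1 h1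
  obtain ⟨c, rfl⟩ := Ideal.mem_span_singleton'.1 hb
  have hu : IsUnit a := by
    have := Ideal.mem_jacobson_bot.1 ht (-c)
    have ha' : a = t * -c + 1 := by linear_combination hab
    rwa [ha']
  exact Ideal.eq_top_of_isUnit_mem _ ha hu

lemma gluedAlg_top : gluedAlg Ψ (⊤ : Ideal C) = ⊤ := by
  refine top_le_iff.1 fun z _ => ?_
  rw [mem_gluedAlg]
  exact Submodule.mem_top

/-- in the semilocal situation a glueing containing one separating element is trivial. -/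
theorem gluedAlg_eq_top_of_mem {J' : Ideal C} {t : C} (ht : t ∈ Ideal.jacobson (⊥ : Ideal C))
    {z : C × C} (hz : z ∈ gluedAlg Ψ J') (hzt : z.1 - Ψ z.2 - 1 ∈ Ideal.span {t}) :
    gluedAlg Ψ J' = ⊤ := by
  rw [eq_top_of_sup_span_eq_top ht (sup_span_eq_top_of_mem Ψ hz hzt), gluedAlg_top]

/-- **K-CUSP, semilocal subalgebra form**: two graphs `+` one separating element `= C × C`. -/
theorem subalgebra_eq_top_of_mem (R : Subalgebra k (C × C))
    (h1 : ∀ a, (a, Ψ a) ∈ R) (h2 : ∀ b, (Ψ b, b) ∈ R) {t : C}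
    (ht : t ∈ Ideal.jacobson (⊥ : Ideal C)) {z : C × C} (hz : z ∈ R)
    (hzt : z.1 - Ψ z.2 - 1 ∈ Ideal.span {t}) : R = ⊤ := by
  obtain ⟨J', _, hR⟩ := exists_ideal_eq_gluedAlg Ψ R h1 h2
  rw [hR]
  exact gluedAlg_eq_top_of_mem Ψ ht (hR ▸ hz) hzt

/-- the same with the concrete witness `(1, t ^ m)`, `Ψ t = t ^ q`. -/
theorem subalgebra_eq_top_of_one_pow (R : Subalgebra k (C × C))
    (h1 : ∀ a, (a, Ψ a) ∈ R) (h2 : ∀ b, (Ψ b, b) ∈ R) {t : C}
    (ht : t ∈ Ideal.jacobson (⊥ : Ideal C)) {q m : ℕ} (hq : q ≠ 0) (hm : m ≠ 0)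
    (hΨt : Ψ t = t ^ q) (hz : ((1 : C), t ^ m) ∈ R) : R = ⊤ :=
  subalgebra_eq_top_of_mem Ψ R h1 h2 ht hz
    (one_pow_sub_one_mem Ψ (map_mem_span_of_eq_pow Ψ hq hΨt) hm)

end Fermat.Agent.GK.Cusp
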