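/-
GATE-K / N7c (K-CUSP), file 2 (helper16): the abstract splitting lemma.

A subring `S ⊆ C × D` which contains the graphs `(c, Ψ₁ c)`, `(Ψ₂ d, d)` of two maps and one element
`(a, 0)` with `a` a unit of `C` (resp. `(0, b)` with `b` a unit of `D`) contains `C × 0`
(resp. `0 × D`); with both it is everything.  Applied to `S = ` the reduction of the ring of
functions regular at the cusps: the two components of the special fibre do not meet at the cusps.
-/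
import Mathlib

set_option autoImplicit false

namespace Fermat.Agent.GK.Cusp

variable {C D : Type*} [CommRing C] [CommRing D]

theorem left_mem_of_sep (S : Subring (C × D)) (Ψ₁ : C → D) (h₁ : ∀ c : C, (c, Ψ₁ c) ∈ S)
    {a : C} (ha : IsUnit a) (ha0 : ((a, 0) : C × D) ∈ S) (c : C) : ((c, 0) : C × D) ∈ S := by
  obtain ⟨u, rfl⟩ := ha
  have h := S.mul_mem ha0 (h₁ ((↑u⁻¹ : C) * c))
  have h2 : (((u : C), (0 : D)) : C × D) * (((↑u⁻¹ : C) * c, Ψ₁ ((↑u⁻¹ : C) * c)) : C × D) =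
      (c, 0) := by
    ext
    · simp
    · simp
  rwa [h2] at h

theorem right_mem_of_sep (S : Subring (C × D)) (Ψ₂ : D → C) (h₂ : ∀ d : D, (Ψ₂ d, d) ∈ S)
    {b : D} (hb : IsUnit b) (hb0 : ((0, b) : C × D) ∈ S) (d : D) : ((0, d) : C × D) ∈ S := by
  obtain ⟨u, rfl⟩ := hb
  have h := S.mul_mem hb0 (h₂ ((↑u⁻¹ : D) * d))
  have h2 : (((0 : C), (u : D)) : C × D) * ((Ψ₂ ((↑u⁻¹ : D) * d), (↑u⁻¹ : D) * d) : C × D) =
      (0, d) := by
    ext
    · simp
    · simp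
  rwa [h2] at h

/-- **no glueing**: the subring is everything. -/
theorem eq_top_of_sep (S : Subring (C × D)) (Ψ₁ : C → D) (Ψ₂ : D → C)
    (h₁ : ∀ c : C, (c, Ψ₁ c) ∈ S) (h₂ : ∀ d : D, (Ψ₂ d, d) ∈ S)
    {a : C} (ha : IsUnit a) (ha0 : ((a, 0) : C × D) ∈ S)
    {b : D} (hb : IsUnit b) (hb0 : ((0, b) : C × D) ∈ S) : S = ⊤ := by
  rw [eq_top_iff]
  rintro ⟨c, d⟩ -
  have h := S.add_mem (left_mem_of_sep S Ψ₁ h₁ ha ha0 c) (right_mem_of_sep S Ψ₂ h₂ hb hb0 d)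
  simpa using h

/-- variant: the second separating element is the swap of the first one (Atkin–Lehner symmetry) -/
theorem eq_top_of_sep_swap {C : Type*} [CommRing C] (S : Subring (C × C)) (Ψ : C → C)
    (h₁ : ∀ c : C, (c, Ψ c) ∈ S) (hswap : ∀ x : C × C, x ∈ S → x.swap ∈ S)
    {a : C} (ha : IsUnit a) (ha0 : ((a, 0) : C × C) ∈ S) : S = ⊤ :=
  eq_top_of_sep S Ψ Ψ h₁ (fun d => hswap _ (h₁ d)) ha ha0 ha (hswap _ ha0)

end Fermat.Agent.GK.Cusp
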