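/-
GATE-K / N7d OLD-LIFTS, CONCRETE (helper23): the `α`- and `β`-old lifts at `F_N`, `N = N' q`,
`q ∥ N`, `A` a valuation subring of `ℚ̄` over `q`.

* `FresBar_mul_eq`  : the residue fields of the Gauss valuations of levels `N' q` and `N'` coincide
                      inside `k((Q))` (helper45 `TwoVal.degrees` + J1 `FresBar_eq_fullC`);
* `psiN`            : the relative Frobenius `Ψ : y(Q) ↦ y(Q^q)` of `FresBar (N' q) A`, with
                      `psiN_tauF : Ψ τ = τ^q` and `regFin_inv_psiN` (`= hΨτ`, `hΨC` of helper49's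
                      `NodesGeFN.card_nodes_ge_FN`);
* `exists_alpha_lifts`, `exists_beta_lifts` : for `m ≥ m0`, every `y ∈ L~(m (τ)_∞)` is `red x`
                      with `x = α f` (resp. `β f`) in the ball `Rw₁ ⊓ Rw₂`, `red x = (y, Ψ y)`
                      (resp. `(Ψ y, y)`) and `j⁻ᵐ x` (resp. `j_q⁻ᵐ x`) integral over `ℚ̄[(j j_q)⁻¹]`
                      (`= hα`, `hβ` of helper29's `HinfSym.hinf_sym_ge`);
* `h1_FN`, `h2_FN`  : the graphs `(a, Ψ a)`, `(Ψ b, b)` lie in the reduction of the chart at infinity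
                      (`= h1`, `h2` of `NodesGeFN.card_nodes_ge_FN`, verbatim).

Everything is stated for an ARBITRARY `Ψ` with `(Ψ y : k((Q))) = y(Q^q)`; `psiN` is one such.
-/
import Fermat.Agent.GK.Flat.NodesGeFN
import Fermat.Agent.GK.Red.LfibLiftBar
import Fermat.Agent.GK.QS.FrobStable
import Fermat.Agent.GK.QS.IntRN
import Fermat.Agent.GK.AL.WRealize
import Fermat.Agent.GK.Val.TwoVal

set_option autoImplicit false
set_option linter.style.haveILetI false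

noncomputable section

namespace Fermat.Agent.GK.OldLifts

open Fermat.Agent.GJ.J1

/-! ### Generic: transport of the chart language along an algebra homomorphism -/

section Transport

variable {k Ft Ft' : Type*} [Field k] [Field Ft] [Algebra k Ft] [Field Ft'] [Algebra k Ft']

theorem regFin_map_hom (φ : Ft' →ₐ[k] Ft) {s x : Ft'} (hx : RegFin k s x) :
    RegFin k (φ s) (φ x) :=
  Fermat.Agent.GK.QS.RegFin.map_algHom φ (regFin_self _) hx

theorem regOver_map_hom (φ : Ft' →ₐ[k] Ft) {s x : Ft'} (hx : RegOver k s x) :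
    RegOver k (φ s) (φ x) := by
  obtain ⟨b, hb, hbx⟩ := hx
  refine ⟨b, hb, ?_⟩
  have := regFin_map_hom φ hbx
  rwa [map_mul, ← Polynomial.aeval_algHom_apply] at this

theorem mem_Lfib_map_hom (φ : Ft' →ₐ[k] Ft) {t x : Ft'} {n : ℤ} (hx : x ∈ Lfib k t n) :
    φ x ∈ Lfib k (φ t) n := by
  rw [mem_Lfib] at hx ⊢
  refine ⟨fun c => ?_, ?_⟩
  · have := regOver_map_hom φ (hx.1 c)
    rwa [map_sub, φ.commutes] at this
  · have := regOver_map_hom φ hx.2
    rwa [map_mul, map_zpow₀, map_inv₀] at this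

end Transport

/-! ### The residue field of level `N' q` and its relative Frobenius -/

section Frob

open HahnSeries ModularCurve IsLocalRing
open Fermat.Agent.S24 Fermat.Agent.S24_helper62 Fermat.Agent.GJ.J1.Val
open Fermat.Agent.GK.AL Fermat.Agent.GK.CuspSep Fermat.Agent.GK.QS

variable (N' : ℕ) [NeZero N'] {q : ℕ} [NeZero q] (A : ValuationSubring Kbar)
  (h : ExactDvd q (N' * q))

local notation "𝕜" => ResidueField A

include h in
/-- **RES**: the residue fields of the Gauss valuations of levels `N' q` and `N'` coincide -/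
theorem FresBar_mul_eq (hA : A.LiesOverPrime q) : FresBar (N' * q) A = FresBar N' A := by
  haveI : Fact q.Prime := ⟨h.prime⟩
  have hqN' : ¬ q ∣ N' := ExactDvd.not_dvd_left N' h
  have h1 := (Fermat.Agent.GK.Val.TwoVal.degrees N' q A h hqN' hA
    (isGaussChart_jF_1 (N' * q) A).1 (isGaussChart_jF_2 (N' * q) A h).1).2.2.1
  rw [h1, Fermat.Agent.GJ.J1.Res.FresBar_eq_fullC N' A hqN' hA]

include h in
theorem qExpand_mem_FresBar_mul_self (hA : A.LiesOverPrime q) {y : LaurentSeries 𝕜}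
    (hy : y ∈ FresBar (N' * q) A) : qExpand 𝕜 q y ∈ FresBar (N' * q) A := by
  haveI : Fact q.Prime := ⟨h.prime⟩
  have hqN' : ¬ q ∣ N' := ExactDvd.not_dvd_left N' h
  rw [FresBar_mul_eq N' A h hA] at hy ⊢
  exact qExpand_mem_FresBar N' q A hqN' hA hy

/-- **the relative Frobenius** `Ψ : y(Q) ↦ y(Q^q)` of the residue field of level `N' q` -/
def psiN (hA : A.LiesOverPrime q) : FresBar (N' * q) A →ₐ[𝕜] FresBar (N' * q) A where
  toFun y := ⟨qExpand 𝕜 q (y : LaurentSeries 𝕜), qExpand_mem_FresBar_mul_self N' A h hA y.2⟩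
  map_one' := Subtype.ext (map_one (qExpand 𝕜 q))
  map_mul' _ _ := Subtype.ext (map_mul (qExpand 𝕜 q) _ _)
  map_zero' := Subtype.ext (map_zero (qExpand 𝕜 q))
  map_add' _ _ := Subtype.ext (map_add (qExpand 𝕜 q) _ _)
  commutes' a := Subtype.ext <| by
    show qExpand 𝕜 q (algebraMap 𝕜 (LaurentSeries 𝕜) a) = algebraMap 𝕜 (LaurentSeries 𝕜) a
    rw [algebraMap_laurentSeries_eq_single, qExpand_single, mul_zero]

@[simp]
theorem coe_psiN (hA : A.LiesOverPrime q) (y : FresBar (N' * q) A) :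
    (psiN N' A h hA y : LaurentSeries 𝕜) = qExpand 𝕜 q (y : LaurentSeries 𝕜) := rfl

/-- a `k`-endomorphism of `FresBar (N' q) A` IS the relative Frobenius -/
def IsFrob (Ψ : FresBar (N' * q) A →ₐ[𝕜] FresBar (N' * q) A) : Prop :=
  ∀ y : FresBar (N' * q) A, ((Ψ y : FresBar (N' * q) A) : LaurentSeries 𝕜) =
    qExpand 𝕜 q (y : LaurentSeries 𝕜)

theorem isFrob_psiN (hA : A.LiesOverPrime q) : IsFrob N' A (psiN N' A h hA) := fun _ => rfl

variable {N' A}

include h in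
/-- `Ψ τ = τ^q` (`hΨτ` of `NodesGeFN.card_nodes_ge_FN`) -/
theorem IsFrob.map_tauF {Ψ : FresBar (N' * q) A →ₐ[𝕜] FresBar (N' * q) A} (hΨ : IsFrob N' A Ψ)
    (hA : A.LiesOverPrime q) : Ψ (tauF (N' * q) A) = tauF (N' * q) A ^ q := by
  haveI : Fact q.Prime := ⟨h.prime⟩
  haveI : CharP 𝕜 q := charP_residue A h.prime hA
  apply Subtype.ext
  rw [hΨ, coe_tauF]
  push_cast
  rw [coe_tauF]
  exact Fermat.Agent.GJ.J3.QS.qExpand_jqModC_char q

include h in
/-- `Ψ` preserves the chart at infinity (`hΨC` of `NodesGeFN.card_nodes_ge_FN`) -/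
theorem IsFrob.regFin_inv {Ψ : FresBar (N' * q) A →ₐ[𝕜] FresBar (N' * q) A} (hΨ : IsFrob N' A Ψ)
    (hA : A.LiesOverPrime q) (a : FresBar (N' * q) A)
    (ha : RegFin 𝕜 (tauF (N' * q) A)⁻¹ a) : RegFin 𝕜 (tauF (N' * q) A)⁻¹ (Ψ a) :=
  Fermat.Agent.GK.HinfSym.regFin_inv_algHom Ψ (hΨ.map_tauF h hA) ha

end Frob

/-! ### The reductions of `α f` and `β f` for both Gauss valuations -/

section Red

open HahnSeries ModularCurve IsLocalRing
open Fermat.Agent.S24 Fermat.Agent.S24_helper62 Fermat.Agent.GJ.J1.Val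
open Fermat.Agent.GK.AL Fermat.Agent.GK.CuspSep Fermat.Agent.GK.QS Fermat.Agent.GJ.HN

variable (N' : ℕ) [NeZero N'] {q : ℕ} [NeZero q] (A : ValuationSubring Kbar)
  (h : ExactDvd q (N' * q))

local notation "𝕜" => ResidueField A

variable {N' A}

/-- `red₁ (α f) = f~` -/
theorem isRed1_alpha {f : FN N'} {y' : FresBar N' A} {y : FresBar (N' * q) A}
    (hf : (redDataBar N' A).IsRed f y') (hy : (y : LaurentSeries 𝕜) = (y' : LaurentSeries 𝕜)) :
    (redDataBar (N' * q) A).IsRed (alphaB N' q f) y := by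
  obtain ⟨hfm, rfl⟩ := hf
  have hm : alphaB N' q f ∈ RwBar (N' * q) A := (alpha_mem_RwBar_iff N' q A f).mpr hfm
  refine ⟨hm, Subtype.ext ?_⟩
  rw [hy]
  exact coe_red_alpha N' q A ⟨f, hfm⟩ hm

/-- `red₁ (β f) = f~(Q^q)` -/
theorem isRed1_beta {f : FN N'} {y' : FresBar N' A} {z : FresBar (N' * q) A}
    (hf : (redDataBar N' A).IsRed f y')
    (hz : (z : LaurentSeries 𝕜) = qExpand 𝕜 q (y' : LaurentSeries 𝕜)) :
    (redDataBar (N' * q) A).IsRed (betaB N' q f) z := by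
  obtain ⟨hfm, rfl⟩ := hf
  have hm : betaB N' q f ∈ RwBar (N' * q) A := (beta_mem_RwBar_iff N' q A f).mpr hfm
  refine ⟨hm, Subtype.ext ?_⟩
  rw [hz]
  exact coe_red_beta N' q A ⟨f, hfm⟩ hm

/-- `red₂ (α f) = red₁ (β f) = f~(Q^q)` -/
theorem isRed2_alpha {f : FN N'} {y' : FresBar N' A} {z : FresBar (N' * q) A}
    (hf : (redDataBar N' A).IsRed f y')
    (hz : (z : LaurentSeries 𝕜) = qExpand 𝕜 q (y' : LaurentSeries 𝕜)) :
    (redData2 (N' * q) A h).IsRed (alphaB N' q f) z := by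
  obtain ⟨hm, hr⟩ := isRed1_beta (q := q) hf hz
  have hm2 : alphaB N' q f ∈ (redData2 (N' * q) A h).Rw := by
    rw [mem_Rw2_iff, wAut_alphaB N' h f]; exact hm
  refine ⟨hm2, ?_⟩
  rw [red2_eq, ← hr]
  congr 1
  exact Subtype.ext (wAut_alphaB N' h f)

/-- `red₂ (β f) = red₁ (α f) = f~` -/
theorem isRed2_beta {f : FN N'} {y' : FresBar N' A} {y : FresBar (N' * q) A}
    (hf : (redDataBar N' A).IsRed f y') (hy : (y : LaurentSeries 𝕜) = (y' : LaurentSeries 𝕜)) :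
    (redData2 (N' * q) A h).IsRed (betaB N' q f) y := by
  obtain ⟨hm, hr⟩ := isRed1_alpha (q := q) hf hy
  have hm2 : betaB N' q f ∈ (redData2 (N' * q) A h).Rw := by
    rw [mem_Rw2_iff, wAut_betaB N' h f]; exact hm
  refine ⟨hm2, ?_⟩
  rw [red2_eq, ← hr]
  congr 1
  exact Subtype.ext (wAut_betaB N' h f)

end Red

/-! ### The old lifts -/

section Lifts

open HahnSeries ModularCurve IsLocalRing
open Fermat.Agent.S24 Fermat.Agent.S24_helper62 Fermat.Agent.GJ.J1.Val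
open Fermat.Agent.GK.AL Fermat.Agent.GK.CuspSep Fermat.Agent.GK.QS Fermat.Agent.GJ.HN
open Fermat.Agent.GK.BallTwo Fermat.Agent.GK.PencilInstS Fermat.Agent.GK.PencilInf

variable (N' : ℕ) [NeZero N'] {q : ℕ} [NeZero q] (A : ValuationSubring Kbar)
  (h : ExactDvd q (N' * q))

local notation "𝕜" => ResidueField A

theorem jdF_idx_congr (M : ℕ) [NeZero M] {d d' : ℕ} (i : NeZero d) (i' : NeZero d') (hdd : d = d')
    (hd : d ∣ M) (hd' : d' ∣ M) : @jdF M _ d i hd = @jdF M _ d' i' hd' := by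
  subst hdd
  rfl

/-- `β j = j_q` -/
theorem betaB_jF_eq : betaB N' q (jF N') = jdF (N' * q) q h.dvd := by
  show betaB N' q (jdF N' 1 (one_dvd N')) = _
  rw [betaB_jdF]
  exact jdF_idx_congr (N' * q) _ _ (one_mul q) _ _

/-- `α` transports integrality over `ℚ̄[1/j]` (pole bookkeeping at the cusps) -/
theorem regFin_inv_alpha {f : FN N'} {m : ℕ}
    (hf : RegFin Kbar (jF N')⁻¹ ((jF N')⁻¹ ^ m * f)) :
    RegFin Kbar (jF (N' * q))⁻¹ ((jF (N' * q))⁻¹ ^ m * alphaB N' q f) := by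
  have := regFin_map_hom (alphaB N' q) hf
  rwa [map_mul, map_pow, map_inv₀, alphaB_jF] at this

/-- `β` transports integrality over `ℚ̄[1/j]` to integrality over `ℚ̄[1/j_q]` -/
theorem regFin_inv_beta {f : FN N'} {m : ℕ}
    (hf : RegFin Kbar (jF N')⁻¹ ((jF N')⁻¹ ^ m * f)) :
    RegFin Kbar (jdF (N' * q) q h.dvd)⁻¹ ((jdF (N' * q) q h.dvd)⁻¹ ^ m * betaB N' q f) := by
  have := regFin_map_hom (betaB N' q) hf
  rwa [map_mul, map_pow, map_inv₀, betaB_jF_eq N' h] at this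

/-- the identification of the residue field of level `N' q` with that of level `N'` -/
def toLow (hA : A.LiesOverPrime q) : FresBar (N' * q) A →ₐ[𝕜] FresBar N' A where
  toFun y := ⟨(y : LaurentSeries 𝕜), (FresBar_mul_eq N' A h hA).le y.2⟩
  map_one' := rfl
  map_mul' _ _ := rfl
  map_zero' := rfl
  map_add' _ _ := rfl
  commutes' _ := rfl

theorem coe_toLow (hA : A.LiesOverPrime q) (y : FresBar (N' * q) A) :
    ((toLow N' A h hA y : FresBar N' A) : LaurentSeries 𝕜) = (y : LaurentSeries 𝕜) :=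
  Subtype.coe_mk (y : LaurentSeries 𝕜) ((FresBar_mul_eq N' A h hA).le y.2)

theorem toLow_tauF (hA : A.LiesOverPrime q) :
    toLow N' A h hA (tauF (N' * q) A) =
      (redDataBar N' A).red ⟨jF N', (Fermat.Agent.GJ.J1.Haupt.isGaussChart_jF N' A).1⟩ := by
  apply Subtype.ext
  rw [coe_toLow, coe_tauF]
  exact (Fermat.Agent.GJ.J1.Haupt.coe_red_jF N' A).symm

/-- **level-`N'` lifts** (helper48 `exists_lift_Lfib_jF`) of the elements of `L~(m (τ)_∞)`,
`τ` the coordinate of the residue field of level `N' q` -/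
theorem exists_low_lifts (hA : A.LiesOverPrime q) (h2 : q = 2 → 3 ∣ N') (h3 : q = 3 → 2 ∣ N') :
    ∃ m0 : ℕ, ∀ m : ℕ, m0 ≤ m → ∀ y ∈ Lfib 𝕜 (tauF (N' * q) A) (m : ℤ),
      ∃ f : FN N', (redDataBar N' A).IsRed f (toLow N' A h hA y) ∧
        RegFin Kbar (jF N')⁻¹ ((jF N')⁻¹ ^ m * f) := by
  haveI : Fact q.Prime := ⟨h.prime⟩
  have hqN' : ¬ q ∣ N' := ExactDvd.not_dvd_left N' h
  obtain ⟨m0, hm0⟩ := Fermat.Agent.GK.LfibLift.exists_lift_Lfib_jF N' A hA hqN' h2 h3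
  refine ⟨m0, fun m hm y hy => ?_⟩
  have hy' := mem_Lfib_map_hom (toLow N' A h hA) hy
  rw [toLow_tauF] at hy'
  obtain ⟨f, hfm, -, -, hfinf, hfred⟩ := hm0 m hm _ hy'
  exact ⟨f, ⟨hfm, hfred⟩, hfinf⟩

variable {N' A}

/-- **the `α`-old lifts** (`hα` of `HinfSym.hinf_sym_ge` at the concrete ball, `Ψ` the relative
Frobenius) -/
theorem exists_alpha_lifts (hA : A.LiesOverPrime q) (h2 : q = 2 → 3 ∣ N') (h3 : q = 3 → 2 ∣ N')
    {Ψ : FresBar (N' * q) A →ₐ[𝕜] FresBar (N' * q) A} (hΨ : IsFrob N' A Ψ) :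
    ∃ m0 : ℕ, ∀ m : ℕ, m0 ≤ m → ∀ y ∈ Lfib 𝕜 (tauF (N' * q) A) (m : ℤ),
      ∃ x, ∃ hx : x ∈ (ballFN (N' * q) A h).B,
        RegFin Kbar (jF (N' * q) * jdF (N' * q) q h.dvd)⁻¹ ((jF (N' * q))⁻¹ ^ m * x) ∧
          (ballFN (N' * q) A h).red ⟨x, hx⟩ = (y, Ψ y) := by
  obtain ⟨m0, hm0⟩ := exists_low_lifts N' A h hA h2 h3
  refine ⟨m0, fun m hm y hy => ?_⟩
  obtain ⟨f, hfred, hfinf⟩ := hm0 m hm y hy
  have hr1 : (redDataBar (N' * q) A).IsRed (alphaB N' q f) y :=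
    isRed1_alpha hfred (coe_toLow N' A h hA y).symm
  have hr2 : (redData2 (N' * q) A h).IsRed (alphaB N' q f) (Ψ y) :=
    isRed2_alpha h hfred (by rw [hΨ y, coe_toLow])
  have hx : alphaB N' q f ∈ (ballFN (N' * q) A h).B := mem_B_of_isRed _ hr1 hr2
  exact ⟨alphaB N' q f, hx,
    regFin_symInv_of_inv_jF (N' * q) h.prime h.dvd (regFin_inv_alpha N' hfinf),
    red_ballFN (N' * q) A h hr1 hr2 hx⟩

/-- **the `β`-old lifts** (`hβ` of `HinfSym.hinf_sym_ge` at the concrete ball) -/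
theorem exists_beta_lifts (hA : A.LiesOverPrime q) (h2 : q = 2 → 3 ∣ N') (h3 : q = 3 → 2 ∣ N')
    {Ψ : FresBar (N' * q) A →ₐ[𝕜] FresBar (N' * q) A} (hΨ : IsFrob N' A Ψ) :
    ∃ m0 : ℕ, ∀ m : ℕ, m0 ≤ m → ∀ y ∈ Lfib 𝕜 (tauF (N' * q) A) (m : ℤ),
      ∃ x, ∃ hx : x ∈ (ballFN (N' * q) A h).B,
        RegFin Kbar (jF (N' * q) * jdF (N' * q) q h.dvd)⁻¹
            ((jdF (N' * q) q h.dvd)⁻¹ ^ m * x) ∧
          (ballFN (N' * q) A h).red ⟨x, hx⟩ = (Ψ y, y) := by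
  obtain ⟨m0, hm0⟩ := exists_low_lifts N' A h hA h2 h3
  refine ⟨m0, fun m hm y hy => ?_⟩
  obtain ⟨f, hfred, hfinf⟩ := hm0 m hm y hy
  have hr1 : (redDataBar (N' * q) A).IsRed (betaB N' q f) (Ψ y) :=
    isRed1_beta hfred (by rw [hΨ y, coe_toLow])
  have hr2 : (redData2 (N' * q) A h).IsRed (betaB N' q f) y :=
    isRed2_beta h hfred (coe_toLow N' A h hA y).symm
  have hx : betaB N' q f ∈ (ballFN (N' * q) A h).B := mem_B_of_isRed _ hr1 hr2
  exact ⟨betaB N' q f, hx,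
    regFin_symInv_of_inv_jq (N' * q) h.prime h.dvd (regFin_inv_beta N' h hfinf),
    red_ballFN (N' * q) A h hr1 hr2 hx⟩

end Lifts

/-! ### The two graphs over the chart at infinity (`h1`, `h2` of `NodesGeFN.card_nodes_ge_FN`) -/

section Graphs

open HahnSeries ModularCurve IsLocalRing
open Fermat.Agent.S24 Fermat.Agent.S24_helper62 Fermat.Agent.GJ.J1.Val
open Fermat.Agent.GK.AL Fermat.Agent.GK.CuspSep Fermat.Agent.GK.BallTwo
  Fermat.Agent.GK.PencilInstS Fermat.Agent.GK.PencilInf Fermat.Agent.GK.HinfSym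

variable {N' : ℕ} [NeZero N'] {q : ℕ} [NeZero q] {A : ValuationSubring Kbar}
  (h : ExactDvd q (N' * q))

local notation "𝕜" => ResidueField A

/-- **`h1`**: `(a, Ψ a) ∈ B_∞~` for `a` integral over `k[τ⁻¹]` -/
theorem h1_FN (hA : A.LiesOverPrime q) (h2 : q = 2 → 3 ∣ N') (h3 : q = 3 → 2 ∣ N')
    {Ψ : FresBar (N' * q) A →ₐ[𝕜] FresBar (N' * q) A} (hΨ : IsFrob N' A Ψ)
    (a : FresBar (N' * q) A) (ha : RegFin 𝕜 (tauF (N' * q) A)⁻¹ a) :
    (a, Ψ a) ∈ redAlg (ballFN (N' * q) A h) (jF (N' * q) * jdF (N' * q) q h.dvd)⁻¹ := by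
  haveI : IsAlgClosed 𝕜 := Fermat.Agent.GJ.ResidueAlgClosed.isAlgClosed_residueField A
  obtain ⟨m0, hα⟩ := exists_alpha_lifts h hA h2 h3 hΨ
  have hredj : (ballFN (N' * q) A h).red ⟨jF (N' * q), jF_mem_ballFN (N' * q) A h hA⟩ =
      (tauF (N' * q) A, Ψ (tauF (N' * q) A)) := by
    rw [hΨ.map_tauF h hA]; exact red_jF (N' * q) A h hA _
  exact graph_left_mem_ge (ballFN (N' * q) A h) Ψ (tauF_ne_zero (N' * q) A)
    (jF_mem_ballFN (N' * q) A h hA) (BallTwo.jF_ne_zero (N' * q))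
    (inv_jF_mem_ballFN (N' * q) A h hA) hredj m0 hα ha

/-- **`h2`**: `(Ψ b, b) ∈ B_∞~` for `b` integral over `k[τ⁻¹]` -/
theorem h2_FN (hA : A.LiesOverPrime q) (h2 : q = 2 → 3 ∣ N') (h3 : q = 3 → 2 ∣ N')
    {Ψ : FresBar (N' * q) A →ₐ[𝕜] FresBar (N' * q) A} (hΨ : IsFrob N' A Ψ)
    (b : FresBar (N' * q) A) (hb : RegFin 𝕜 (tauF (N' * q) A)⁻¹ b) :
    (Ψ b, b) ∈ redAlg (ballFN (N' * q) A h) (jF (N' * q) * jdF (N' * q) q h.dvd)⁻¹ := by
  haveI : IsAlgClosed 𝕜 := Fermat.Agent.GJ.ResidueAlgClosed.isAlgClosed_residueField A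
  obtain ⟨m0, hβ⟩ := exists_beta_lifts h hA h2 h3 hΨ
  have hredjq : (ballFN (N' * q) A h).red
      ⟨jdF (N' * q) q h.dvd, jq_mem_ballFN (N' * q) A h hA⟩ =
      (Ψ (tauF (N' * q) A), tauF (N' * q) A) := by
    rw [hΨ.map_tauF h hA]; exact red_jq (N' * q) A h hA _
  exact graph_right_mem_ge (ballFN (N' * q) A h) Ψ (tauF_ne_zero (N' * q) A)
    (jq_mem_ballFN (N' * q) A h hA) (jq_ne_zero (N' * q) h.dvd)
    (inv_jq_mem_ballFN (N' * q) A h hA) hredjq m0 hβ hb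

end Graphs

end Fermat.Agent.GK.OldLifts
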