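import Fermat.Agent.S24.CuspFinal
import Fermat.Agent.GJ.J1.PlaceLattice

/-!
# GATE-K / N7c K-CUSP: regularity at the cusps via the cusp expansions

For `f ∈ F_N = ℚ̄(X₀(N))`: `f` is regular over `j = ∞` (`RegOver ℚ̄ (jF N)⁻¹ f`, the lattice
language of `GJ/J1/Defs.lean`) iff every one of the `ψ(N)` cusp expansions
`cuspSigma N c f ∈ ℚ̄((t))` (T24, helper62) has nonnegative order.

Ingredients: `GJ/J1/PlaceLattice.regOver_iff_ord` (places), T24's orbit lemma
`LOC.exists_place_eq` at helper76's `cuspData` (every place over `j = ∞` is computed by one of the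
cusp expansions).
-/

set_option autoImplicit false

noncomputable section

namespace Fermat.Agent.GK.Cusp

open AlgebraicCurve IntermediateField ModularCurve
open Fermat.Agent.S24 Fermat.Agent.S24_helper62 Fermat.Agent.S24_helper76.CuspOrbit
open Fermat.Agent.GJ.J1
open scoped MatrixGroups

variable (N : ℕ) [NeZero N]

/-- every place of `F_N` over `j = ∞` is computed by a cusp expansion, up to a positive
multiplicity -/
theorem exists_cusp_of_place (w : Fibre Kbar (jF N)⁻¹) :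
    ∃ (c : I0 N) (m : ℤ), 0 < m ∧
      ∀ f : FN N, f ≠ 0 → (cuspSigma N c f).order = m * w.1.ord f := by
  obtain ⟨hx, hfd, -⟩ := m9 N
  have hxinv : Transcendental Kbar (jF N)⁻¹ := Norm.transcendental_inv hx
  haveI hgen : IsGen Kbar (jF N) := ⟨hx, hfd⟩
  have hfd' : FiniteDimensional Kbar⟮(jF N)⁻¹⟯ (FN N) :=
    (FF1.isGen_inv (K := Kbar) (jF N)).finite
  have hk : Kbar⟮jF N⟯ = Kbar⟮(jF N)⁻¹⟯ := (Norm.adjoin_simple_inv (K := Kbar) (jF N)).symm
  obtain ⟨hfin, hN, hWA⟩ := Norm.fibre_package (jF N)⁻¹ hxinv Kbar⟮jF N⟯ hk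
  obtain ⟨ζ, hζ, hC4⟩ := exists_zeta_cuspSigma_T_smul N
  have hC1 := cuspSigma_jF N
  have hC2 := cuspSigma_injective N
  have hC3 : ∀ a ∈ Degree.RN N, ∀ m, (∏ q, (Polynomial.X - Polynomial.C (cuspSigma N q a))).coeff m ∈
      qExpand Kbar N '' (Algebra.adjoin Kbar {jqModC Kbar} : Set (LaurentSeries Kbar)) :=
    fun a ha m => cuspSigma_sym N a ha m
  obtain ⟨i, -, hm, hV⟩ := exists_place_eq Kbar⟮jF N⟯ (jF N)⁻¹ hN hWA ModularGroup.T
    (cuspData hC1) (hnorm_cusp hC1 hC2 hC3) (hsymm_cusp hC1 ModularGroup.T ζ hC4)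
    (hg_cusp hC1 hC2 ModularGroup.T ζ hζ hC4) (hdiv_cusp hC1 ModularGroup.T ζ hζ hC4) w
  exact ⟨i, _, hm, fun f hf => hV f hf⟩

/-- every cusp expansion computes a place over `j = ∞`, up to a positive multiplicity -/
theorem exists_place_of_cusp (c : I0 N) :
    ∃ (w : Fibre Kbar (jF N)⁻¹) (m : ℤ), 0 < m ∧
      ∀ f : FN N, f ≠ 0 → (cuspSigma N c f).order = m * w.1.ord f := by
  have hC1 := cuspSigma_jF N
  exact ⟨(cuspData hC1).place c, (cuspData hC1).mult c, (cuspData hC1).mult_pos c,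
    fun f hf => (cuspData hC1).eq_mult_mul_ord c hf⟩

/-- **regularity at the cusps = nonnegative order of all cusp expansions** -/
theorem regOver_inv_jF_iff (f : FN N) :
    RegOver Kbar (jF N)⁻¹ f ↔ ∀ c : I0 N, f = 0 ∨ 0 ≤ (cuspSigma N c f).order := by
  haveI : IsGen Kbar (jF N) := ⟨(m9 N).1, (m9 N).2.1⟩
  have hxinv : Transcendental Kbar (jF N)⁻¹ := Norm.transcendental_inv (m9 N).1
  rw [PlaceLattice.regOver_iff_ord (jF N) hxinv f]
  constructor
  · intro h c
    by_cases hf : f = 0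
    · exact Or.inl hf
    · refine Or.inr ?_
      obtain ⟨w, m, hm, hw⟩ := exists_place_of_cusp N c
      rw [hw f hf]
      exact mul_nonneg hm.le (h w.1 w.2)
  · intro h v hv
    by_cases hf : f = 0
    · rw [hf]; exact (PlaceLattice.ord_nonneg_iff_mem v 0).mpr (zero_mem _)
    · obtain ⟨c, m, hm, hc⟩ := exists_cusp_of_place N ⟨v, hv⟩
      rcases h c with h0 | h0
      · exact absurd h0 hf
      · rw [hc f hf] at h0
        by_contra hneg
        push Not at hneg
        have : m * v.ord f < 0 := mul_neg_of_pos_of_neg hm hneg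
        exact absurd h0 (not_le.mpr this)

/-- nonzero form -/
theorem regOver_inv_jF_of_order_nonneg {f : FN N}
    (h : ∀ c : I0 N, 0 ≤ (cuspSigma N c f).order) : RegOver Kbar (jF N)⁻¹ f :=
  (regOver_inv_jF_iff N f).mpr fun c => Or.inr (h c)

end Fermat.Agent.GK.Cusp
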