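import Fermat.Agent.GJ.J1.Defs

/-!
# GATE-K / N7c K-CUSP (abstract half): no glueing over a point of the chart line

Two reduction data `R1`, `R2` on the same function field `F / K` (two extensions of the Gauss
valuation), a chart `s : F` (think `s = j⁻¹`, the point `s = 0` being "the cusps"), with reductions
`s1 : Ft1`, `s2 : Ft2`.  Write `B_∞ := {x ∈ Rw1 ⊓ Rw2 | RegOver K s x}` and
`C_∞^(i) := {y : Ft_i | RegOver k s_i y}`.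

If each projection `B_∞ → C_∞^(i)` is onto, reduction preserves regularity over the point, and
there is a *separating element* `e ∈ B_∞` with `red₁ e = 0` and `red₂ e` a unit of `C_∞^(2)`,
then `B_∞ → C_∞^(1) × C_∞^(2)` is ONTO: the two components of the special fibre do not meet over
`s = 0`.
-/

set_option autoImplicit false

namespace Fermat.Agent.GK.Cusp

open Fermat.Agent.GJ.J1

variable {K F k Ft1 Ft2 : Type*} [Field K] [Field F] [Algebra K F] [Field k]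
  [Field Ft1] [Algebra k Ft1] [Field Ft2] [Algebra k Ft2]

/-- `x` lies in the semilocal order `B_∞ = {x ∈ Rw1 ⊓ Rw2 | x regular over s = 0}` and has the
prescribed pair of reductions. -/
def LiftsPair (R1 : RedData K F k Ft1) (R2 : RedData K F k Ft2) (s x : F) (y1 : Ft1) (y2 : Ft2) :
    Prop :=
  ∃ (h1 : x ∈ R1.Rw) (h2 : x ∈ R2.Rw), RegOver K s x ∧ R1.red ⟨x, h1⟩ = y1 ∧ R2.red ⟨x, h2⟩ = y2

/-- a separating element for the second component over `s = 0`: `red₁ e = 0`, `red₂ e` is a unit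
of the semilocal ring `C_∞^(2)` -/
def IsSeparating (R1 : RedData K F k Ft1) (R2 : RedData K F k Ft2) (s : F) (s2 : Ft2) (e : F) :
    Prop :=
  ∃ (h1 : e ∈ R1.Rw) (h2 : e ∈ R2.Rw), RegOver K s e ∧ R1.red ⟨e, h1⟩ = 0 ∧
    R2.red ⟨e, h2⟩ ≠ 0 ∧ RegOver k s2 (R2.red ⟨e, h2⟩)⁻¹

/-- **K-CUSP, abstract form**: with a separating element, `B_∞ → C_∞^(1) × C_∞^(2)` is onto. -/
theorem cusp_split (R1 : RedData K F k Ft1) (R2 : RedData K F k Ft2) (s : F)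
    (s1 : Ft1) (s2 : Ft2)
    (hred2 : ∀ x (_ : x ∈ R1.Rw) (h2 : x ∈ R2.Rw), RegOver K s x →
      RegOver k s2 (R2.red ⟨x, h2⟩))
    (hsurj1 : ∀ y : Ft1, RegOver k s1 y →
      ∃ x, ∃ (h1 : x ∈ R1.Rw) (_ : x ∈ R2.Rw), RegOver K s x ∧ R1.red ⟨x, h1⟩ = y)
    (hsurj2 : ∀ y : Ft2, RegOver k s2 y →
      ∃ x, ∃ (_ : x ∈ R1.Rw) (h2 : x ∈ R2.Rw), RegOver K s x ∧ R2.red ⟨x, h2⟩ = y)
    {e : F} (he : IsSeparating R1 R2 s s2 e)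
    (y1 : Ft1) (y2 : Ft2) (hy1 : RegOver k s1 y1) (hy2 : RegOver k s2 y2) :
    ∃ x, LiftsPair R1 R2 s x y1 y2 := by
  obtain ⟨e1, e2, hes, he1, heu, heinv⟩ := he
  obtain ⟨x1, hx11, hx12, hx1s, hx1r⟩ := hsurj1 y1 hy1
  -- the defect on the second component
  have hd : RegOver k s2 (y2 - R2.red ⟨x1, hx12⟩) := hy2.sub (hred2 x1 hx11 hx12 hx1s)
  obtain ⟨w, hw1, hw2, hws, hwr⟩ :=
    hsurj2 ((R2.red ⟨e, e2⟩)⁻¹ * (y2 - R2.red ⟨x1, hx12⟩)) (heinv.mul hd)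
  refine ⟨x1 + e * w, R1.Rw.add_mem _ _ hx11 (R1.Rw.mul_mem _ _ e1 hw1),
    R2.Rw.add_mem _ _ hx12 (R2.Rw.mul_mem _ _ e2 hw2), hx1s.add (hes.mul hws), ?_, ?_⟩
  · have h : (⟨x1 + e * w, R1.Rw.add_mem _ _ hx11 (R1.Rw.mul_mem _ _ e1 hw1)⟩ : R1.Rw)
        = ⟨x1, hx11⟩ + ⟨e, e1⟩ * ⟨w, hw1⟩ := rfl
    rw [h, map_add, map_mul, he1, zero_mul, add_zero, hx1r]
  · have h : (⟨x1 + e * w, R2.Rw.add_mem _ _ hx12 (R2.Rw.mul_mem _ _ e2 hw2)⟩ : R2.Rw)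
        = ⟨x1, hx12⟩ + ⟨e, e2⟩ * ⟨w, hw2⟩ := rfl
    rw [h, map_add, map_mul, hwr, ← mul_assoc, mul_inv_cancel₀ heu, one_mul]
    ring

/-- the idempotent-like elements: `(0, 1)` and `(1, 0)` lift to `B_∞` -/
theorem exists_lift_zero_one (R1 : RedData K F k Ft1) (R2 : RedData K F k Ft2) (s : F)
    (s2 : Ft2)
    (hsurj2 : ∀ y : Ft2, RegOver k s2 y →
      ∃ x, ∃ (_ : x ∈ R1.Rw) (h2 : x ∈ R2.Rw), RegOver K s x ∧ R2.red ⟨x, h2⟩ = y)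
    {e : F} (he : IsSeparating R1 R2 s s2 e) :
    ∃ x, LiftsPair R1 R2 s x (0 : Ft1) (1 : Ft2) := by
  obtain ⟨e1, e2, hes, he1, heu, heinv⟩ := he
  obtain ⟨w, hw1, hw2, hws, hwr⟩ := hsurj2 ((R2.red ⟨e, e2⟩)⁻¹) heinv
  refine ⟨e * w, R1.Rw.mul_mem _ _ e1 hw1, R2.Rw.mul_mem _ _ e2 hw2, hes.mul hws, ?_, ?_⟩
  · have h : (⟨e * w, R1.Rw.mul_mem _ _ e1 hw1⟩ : R1.Rw) = ⟨e, e1⟩ * ⟨w, hw1⟩ := rfl
    rw [h, map_mul, he1, zero_mul]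
  · have h : (⟨e * w, R2.Rw.mul_mem _ _ e2 hw2⟩ : R2.Rw) = ⟨e, e2⟩ * ⟨w, hw2⟩ := rfl
    rw [h, map_mul, hwr, mul_inv_cancel₀ heu]

end Fermat.Agent.GK.Cusp
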