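import Fermat.Agent.GK.Flat.PencilInf

/-!
# GATE-K / N7d : the chart at infinity for a `wAut`-SYMMETRIC chart (helper23)

For the chart `t = j` the ring `B_∞ = {x ∈ B | x integral over K[1/j]}` is NOT stable under the
Atkin–Lehner automorphism: `β`-old functions are integral over `K[1/j_q]`, not over `K[1/j]`, so
the hypothesis `h2 : (Ψ b, b) ∈ red B_∞` of `PencilInf.hinf_of_hfin` is not available from the old
functions.  For the symmetric chart `t' = j * j_q` both families of old functions are integral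
over `K[1/t']`, and `red (1/t') = (tt, Ψ tt) * (Ψ tt, tt)` with `tt = 1/j~`.  This file provides
the versions of helper29's saturation lemma / `transfer` / `hinf_of_hfin` for
`σ' = (tt, Ψ tt) * (Ψ tt, tt)`.  Mathlib + `FrobGlueInfty` + `PencilInf` only.
-/

set_option autoImplicit false

namespace Fermat.Agent.GK.SymInf

open Fermat.Agent.GJ.J1 Fermat.Agent.GK.PencilInstS Fermat.Agent.GK.FrobGlue
open Fermat.Agent.GK.PencilInf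

section Untyped

variable {k F : Type*} [Field k] [CommRing F] [Algebra k F]

/-- The swap `{z | z.swap ∈ R}` of a subalgebra of `F × F`. -/
def swapAlg (R : Subalgebra k (F × F)) : Subalgebra k (F × F) where
  carrier := {z | z.swap ∈ R}
  mul_mem' := by
    intro a b ha hb
    have := R.mul_mem ha hb
    simpa using this
  add_mem' := by
    intro a b ha hb
    have := R.add_mem ha hb
    simpa using this
  algebraMap_mem' := by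
    intro c
    have := R.algebraMap_mem c
    simpa using this

theorem mem_swapAlg {R : Subalgebra k (F × F)} {z : F × F} : z ∈ swapAlg R ↔ z.swap ∈ R :=
  Iff.rfl

variable (Ψ : F →ₐ[k] F)

/-- **mirror of helper29's saturation lemma**: saturation with respect to `(Ψ t, t)`. -/
theorem mem_of_pow_mul_mem_swap (C₁ : Subalgebra k F) (hΨ : ∀ a ∈ C₁, Ψ a ∈ C₁)
    (R₁ : Subalgebra k (F × F))
    (h1 : ∀ a ∈ C₁, (a, Ψ a) ∈ R₁) (h2 : ∀ b ∈ C₁, (Ψ b, b) ∈ R₁)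
    {t : F} (ht : t ∈ C₁) {e : F × F} (he : e ∈ R₁) (he1 : e.1 ∈ C₁) {c : F} (hc : c ∈ C₁)
    (hec : e.2 - Ψ e.1 = 1 + c * t)
    {z : F × F} (hz1 : z.1 ∈ C₁) (hz2 : z.2 ∈ C₁) {m : ℕ}
    (h : ((Ψ t, t) : F × F) ^ m * z ∈ R₁) : z ∈ R₁ := by
  have key : z.swap ∈ swapAlg R₁ := by
    refine mem_of_pow_mul_mem Ψ C₁ hΨ (swapAlg R₁) (fun a ha => ?_) (fun b hb => ?_) ht
      (e := e.swap) ?_ he1 hc hec (z := z.swap) hz2 hz1 (m := m) ?_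
    · exact h2 a ha
    · exact h1 b hb
    · rw [mem_swapAlg, Prod.swap_swap]; exact he
    · rw [mem_swapAlg]
      have : (((t, Ψ t) : F × F) ^ m * z.swap).swap = ((Ψ t, t) : F × F) ^ m * z := by
        ext <;> simp
      rw [this]
      exact h
  rw [mem_swapAlg, Prod.swap_swap] at key
  exact key

/-- **saturation with respect to the symmetric element** `σ' = (t, Ψ t) * (Ψ t, t)`. -/
theorem mem_of_sympow_mul_mem (C₁ : Subalgebra k F) (hΨ : ∀ a ∈ C₁, Ψ a ∈ C₁)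
    (R₁ : Subalgebra k (F × F))
    (h1 : ∀ a ∈ C₁, (a, Ψ a) ∈ R₁) (h2 : ∀ b ∈ C₁, (Ψ b, b) ∈ R₁)
    {t : F} (ht : t ∈ C₁)
    {e : F × F} (he : e ∈ R₁) (he2 : e.2 ∈ C₁) {c : F} (hc : c ∈ C₁)
    (hec : e.1 - Ψ e.2 = 1 + c * t)
    {e' : F × F} (he' : e' ∈ R₁) (he1' : e'.1 ∈ C₁) {c' : F} (hc' : c' ∈ C₁)
    (hec' : e'.2 - Ψ e'.1 = 1 + c' * t)
    {z : F × F} (hz1 : z.1 ∈ C₁) (hz2 : z.2 ∈ C₁) {m : ℕ}
    (h : (((t, Ψ t) : F × F) * (Ψ t, t)) ^ m * z ∈ R₁) : z ∈ R₁ := by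
  have hsplit : (((t, Ψ t) : F × F) * (Ψ t, t)) ^ m * z
      = ((t, Ψ t) : F × F) ^ m * (((Ψ t, t) : F × F) ^ m * z) := by
    rw [mul_pow, mul_assoc]
  rw [hsplit] at h
  have hΨt : Ψ t ∈ C₁ := hΨ t ht
  have hz1' : (((Ψ t, t) : F × F) ^ m * z).1 ∈ C₁ := by
    simp only [Prod.fst_mul, Prod.pow_fst]
    exact C₁.mul_mem (C₁.pow_mem hΨt m) hz1
  have hz2' : (((Ψ t, t) : F × F) ^ m * z).2 ∈ C₁ := by
    simp only [Prod.snd_mul, Prod.pow_snd]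
    exact C₁.mul_mem (C₁.pow_mem ht m) hz2
  have h' := mem_of_pow_mul_mem Ψ C₁ hΨ R₁ h1 h2 ht he he2 hc hec hz1' hz2' h
  exact mem_of_pow_mul_mem_swap Ψ C₁ hΨ R₁ h1 h2 ht he' he1' hc' hec' hz1 hz2 h'

/-- the two K-CUSP witnesses from the single element `(1, t ^ m)` (`= red (j_q / j ^ q)`,
`m = q² - 1`) when `Ψ t = t ^ q`. -/
theorem witnesses_of_one_pow (C₁ : Subalgebra k F) (R₁ : Subalgebra k (F × F))
    {t : F} (ht : t ∈ C₁) {q m : ℕ} (hq : q ≠ 0) (hm : m ≠ 0) (hΨt : Ψ t = t ^ q)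
    (hz : ((1 : F), t ^ m) ∈ R₁) :
    (∃ e ∈ R₁, e.2 ∈ C₁ ∧ ∃ c ∈ C₁, e.1 - Ψ e.2 = 1 + c * t) ∧
      (∃ e' ∈ R₁, e'.1 ∈ C₁ ∧ ∃ c' ∈ C₁, e'.2 - Ψ e'.1 = 1 + c' * t) := by
  constructor
  · refine ⟨(1, t ^ m), hz, C₁.pow_mem ht m, -t ^ (q * m - 1), C₁.neg_mem (C₁.pow_mem ht _), ?_⟩
    have hqm : q * m - 1 + 1 = q * m :=
      Nat.sub_add_cancel (Nat.one_le_iff_ne_zero.2 (Nat.mul_ne_zero hq hm))
    have : t ^ (q * m - 1) * t = t ^ (q * m) := by rw [← pow_succ, hqm]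
    simp only [map_pow, hΨt]
    rw [← pow_mul, neg_mul, this]
    ring
  · refine ⟨(1, 2 - t ^ m), ?_, C₁.one_mem, -t ^ (m - 1), C₁.neg_mem (C₁.pow_mem ht _), ?_⟩
    · have h1 : ((1 : F), (2 : F) - t ^ m) = 2 * (1 : F × F) - (1, t ^ m) := by
        ext
        · simp; norm_num
        · simp
      rw [h1]
      exact R₁.sub_mem (R₁.mul_mem (by
        have : (2 : F × F) = 1 + 1 := by norm_num
        rw [this]; exact R₁.add_mem R₁.one_mem R₁.one_mem) R₁.one_mem) hz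
    · have hm1 : m - 1 + 1 = m := Nat.sub_add_cancel (Nat.one_le_iff_ne_zero.2 hm)
      have : t ^ (m - 1) * t = t ^ m := by rw [← pow_succ, hm1]
      simp only [map_one]
      rw [neg_mul, this]
      ring

/-- **the overlap of the two charts for the symmetric chart**: `R₀` the reduction of the finite
chart, `R₁` that of the chart at infinity, `σ' = (t, Ψ t) * (Ψ t, t)`. -/
theorem transfer_sym (C₁ : Subalgebra k F) (hΨ : ∀ a ∈ C₁, Ψ a ∈ C₁)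
    (R₀ R₁ : Subalgebra k (F × F))
    (h1 : ∀ a ∈ C₁, (a, Ψ a) ∈ R₁) (h2 : ∀ b ∈ C₁, (Ψ b, b) ∈ R₁)
    {t : F} (ht : t ∈ C₁)
    {e : F × F} (he : e ∈ R₁) (he2 : e.2 ∈ C₁) {c : F} (hc : c ∈ C₁)
    (hec : e.1 - Ψ e.2 = 1 + c * t)
    {e' : F × F} (he' : e' ∈ R₁) (he1' : e'.1 ∈ C₁) {c' : F} (hc' : c' ∈ C₁)
    (hec' : e'.2 - Ψ e'.1 = 1 + c' * t)
    (hloc : ∀ z ∈ R₀, ∃ m : ℕ, (((t, Ψ t) : F × F) * (Ψ t, t)) ^ m * z ∈ R₁)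
    {z : F × F} (hz : z ∈ R₀) (n : ℕ)
    (hz1 : ((((t, Ψ t) : F × F) * (Ψ t, t)) ^ n * z).1 ∈ C₁)
    (hz2 : ((((t, Ψ t) : F × F) * (Ψ t, t)) ^ n * z).2 ∈ C₁) :
    (((t, Ψ t) : F × F) * (Ψ t, t)) ^ n * z ∈ R₁ := by
  obtain ⟨m, hm⟩ := hloc z hz
  have hσ : (((t, Ψ t) : F × F) * (Ψ t, t)) ∈ R₁ := R₁.mul_mem (h1 t ht) (h2 t ht)
  rcases le_total m n with hmn | hnm
  · obtain ⟨r, rfl⟩ := Nat.exists_eq_add_of_le hmn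
    rw [pow_add, mul_comm ((((t, Ψ t) : F × F) * (Ψ t, t)) ^ m), mul_assoc]
    exact R₁.mul_mem (R₁.pow_mem hσ r) hm
  · obtain ⟨r, rfl⟩ := Nat.exists_eq_add_of_le hnm
    rw [pow_add, mul_comm ((((t, Ψ t) : F × F) * (Ψ t, t)) ^ n), mul_assoc] at hm
    exact mem_of_sympow_mul_mem Ψ C₁ hΨ R₁ h1 h2 ht he he2 hc hec he' he1' hc' hec' hz1 hz2 hm

end Untyped

section Ball

variable {K F k Ft : Type*} [Field K] [Field F] [Algebra K F] [Field k] [CommRing Ft]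
  [Algebra k Ft]

variable (D : BallRed K F k (Ft × Ft))

/-- **`hinf` from `hfin` for a symmetric chart** `t` (`= j * j_q`), whose inverse reduces to
`(tt, Ψ tt) * (Ψ tt, tt)` (`tt = 1/j~`).  Here `h1`, `h2` ARE available from the old functions:
`α* x'` and `β* x'` (`x'` regular off `j = 0` at level `N'`) are both integral over `K[1/t]`. -/
theorem hinf_of_hfin_sym (Ψ : Ft →ₐ[k] Ft) {t : F} (ht : t ∈ D.B) (ht0 : t ≠ 0)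
    (hti : t⁻¹ ∈ D.B)
    (C₁ : Subalgebra k Ft) (hΨ : ∀ a ∈ C₁, Ψ a ∈ C₁)
    (h1 : ∀ a ∈ C₁, (a, Ψ a) ∈ redAlg D t⁻¹) (h2 : ∀ b ∈ C₁, (Ψ b, b) ∈ redAlg D t⁻¹)
    {tt : Ft} (htt : tt ∈ C₁) (hσ : D.red ⟨t⁻¹, hti⟩ = ((tt, Ψ tt) : Ft × Ft) * (Ψ tt, tt))
    {e : Ft × Ft} (he : e ∈ redAlg D t⁻¹) (he2 : e.2 ∈ C₁) {c : Ft} (hc : c ∈ C₁)
    (hec : e.1 - Ψ e.2 = 1 + c * tt)
    {e' : Ft × Ft} (he' : e' ∈ redAlg D t⁻¹) (he1' : e'.1 ∈ C₁) {c' : Ft} (hc' : c' ∈ C₁)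
    (hec' : e'.2 - Ψ e'.1 = 1 + c' * tt)
    (T : Submodule k (Ft × Ft)) (n : ℕ)
    (hfin : ∀ z ∈ T, ∃ x, ∃ hx : x ∈ D.B, RegFin K t x ∧ D.red ⟨x, hx⟩ = z)
    (hpole : ∀ z ∈ T, ((((tt, Ψ tt) : Ft × Ft) * (Ψ tt, tt)) ^ n * z).1 ∈ C₁ ∧
      ((((tt, Ψ tt) : Ft × Ft) * (Ψ tt, tt)) ^ n * z).2 ∈ C₁) :
    ∀ z ∈ T, ∃ y, ∃ hy : y ∈ D.B, RegFin K t⁻¹ y ∧ D.red ⟨t, ht⟩ ^ n * D.red ⟨y, hy⟩ = z := by
  intro z hz
  have hz0 : z ∈ redAlg D t := hfin z hz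
  have hloc : ∀ w ∈ redAlg D t,
      ∃ m : ℕ, (((tt, Ψ tt) : Ft × Ft) * (Ψ tt, tt)) ^ m * w ∈ redAlg D t⁻¹ := by
    intro w hw
    obtain ⟨m, hm⟩ := exists_pow_mul_mem_redAlg_inv D ht0 hti hw
    exact ⟨m, hσ ▸ hm⟩
  obtain ⟨y, hy, hyr, hyz⟩ := transfer_sym Ψ C₁ hΨ (redAlg D t) (redAlg D t⁻¹) h1 h2 htt
    he he2 hc hec he' he1' hc' hec' hloc hz0 n (hpole z hz).1 (hpole z hz).2
  refine ⟨y, hy, hyr, ?_⟩
  rw [hyz, ← hσ, ← mul_assoc, ← mul_pow, red_mul_red_inv D ht ht0 hti, one_pow, one_mul]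

/-- the same with the single K-CUSP element `(1, tt ^ m)` (`= red (j_q / j ^ q)`, `m = q² - 1`)
and `Ψ tt = tt ^ q`. -/
theorem hinf_of_hfin_sym_one_pow (Ψ : Ft →ₐ[k] Ft) {t : F} (ht : t ∈ D.B) (ht0 : t ≠ 0)
    (hti : t⁻¹ ∈ D.B)
    (C₁ : Subalgebra k Ft) (hΨ : ∀ a ∈ C₁, Ψ a ∈ C₁)
    (h1 : ∀ a ∈ C₁, (a, Ψ a) ∈ redAlg D t⁻¹) (h2 : ∀ b ∈ C₁, (Ψ b, b) ∈ redAlg D t⁻¹)
    {tt : Ft} (htt : tt ∈ C₁) (hσ : D.red ⟨t⁻¹, hti⟩ = ((tt, Ψ tt) : Ft × Ft) * (Ψ tt, tt))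
    {q m : ℕ} (hq : q ≠ 0) (hm : m ≠ 0) (hΨt : Ψ tt = tt ^ q)
    (he : ((1 : Ft), tt ^ m) ∈ redAlg D t⁻¹)
    (T : Submodule k (Ft × Ft)) (n : ℕ)
    (hfin : ∀ z ∈ T, ∃ x, ∃ hx : x ∈ D.B, RegFin K t x ∧ D.red ⟨x, hx⟩ = z)
    (hpole : ∀ z ∈ T, ((((tt, Ψ tt) : Ft × Ft) * (Ψ tt, tt)) ^ n * z).1 ∈ C₁ ∧
      ((((tt, Ψ tt) : Ft × Ft) * (Ψ tt, tt)) ^ n * z).2 ∈ C₁) :
    ∀ z ∈ T, ∃ y, ∃ hy : y ∈ D.B, RegFin K t⁻¹ y ∧ D.red ⟨t, ht⟩ ^ n * D.red ⟨y, hy⟩ = z := by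
  obtain ⟨⟨e, he, he2, c, hc, hec⟩, ⟨e', he', he1', c', hc', hec'⟩⟩ :=
    witnesses_of_one_pow Ψ C₁ (redAlg D t⁻¹) htt hq hm hΨt he
  exact hinf_of_hfin_sym D Ψ ht ht0 hti C₁ hΨ h1 h2 htt hσ he he2 hc hec he' he1' hc' hec'
    T n hfin hpole

end Ball

end Fermat.Agent.GK.SymInf
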