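import Fermat.Agent.GK.Cusp.RegCusp
import Fermat.Agent.GK.Cusp.Split
import Fermat.Agent.GK.Val.Degrees
import Fermat.Agent.GK.AL.WAut
import Fermat.Agent.GK.Red.FrobChart
import Fermat.Agent.GJ.J1.ResidueAlgClosed

/-!
# GATE-K / N7c K-CUSP (concrete half): the cusp-separating function `1 - j_q / j^q`

`N = q N'`, `q ∤ N'`, `A ⊂ ℚ̄` a valuation ring over `q`, `w₁` the Gauss valuation of
`F_N = ℚ̄(X₀(N))` (`redDataBar N A`), `w₂ = w₁ ∘ W_q` (`wAut`).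

* `x = j_d / j^d` and `x' = j / j_d^d` (any `d ∣ N`) are regular at ALL cusps
  (`RegOver ℚ̄ j⁻¹`): the orders of the cusp expansions are `dN - e ≥ 0` resp. `d e - N ≥ 0`
  where `e = (N/d) A²`, `A ∣ d` (T24 `hermiteSer_order`).
* for `d = q`: `x ∈ Rw₁`, `red₁ x = 1` (`j~(t^q) = j~^q` in characteristic `q`),
  `x' ∈ Rw₁`, `red₁ x' = (j~⁻¹)^(q² - 1)`.
* `W_q x = x'`.  So `e := 1 - x` has `red₁ e = 0`, `red₂ e = red₁ (W e) = 1 - (j~⁻¹)^(q²-1)`, whose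
  inverse is regular over `j~⁻¹ = 0`: `e` is a separating element in the sense of `Split.lean`.
-/

set_option autoImplicit false

noncomputable section

namespace Fermat.Agent.GK.Cusp

open AlgebraicCurve IntermediateField ModularCurve HahnSeries
open Fermat.Agent.S24 Fermat.Agent.S28 Fermat.Agent.S28.CuspExp Fermat.Agent.S28.Assemble
  Fermat.Agent.S24_helper62
  Fermat.Agent.S24_helper76.CuspOrbit
open Fermat.Agent.GJ.J1 Fermat.Agent.GJ.J1.Val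
open scoped MatrixGroups

/-! ### orders of the cusp expansions -/

section Orders

variable (N : ℕ) [NeZero N]

/-- the valuation "order of the expansion at the cusp `c`" -/
def cuspVal (c : I0 N) : IntVal Kbar (FN N) := IntVal.comap (cuspSigma N c) (orderIntVal Kbar)

theorem cuspVal_apply (c : I0 N) (f : FN N) : cuspVal N c f = (cuspSigma N c f).order := rfl

theorem cuspVal_jF (c : I0 N) : cuspVal N c (jF N) = -(N : ℤ) := by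
  rw [cuspVal_apply, cuspSigma_jF, Fermat.Agent.S24_helper76.CuspOrbit.order_qExpand_jqModC N Kbar]

theorem cuspVal_jdF (c : I0 N) {d : ℕ} [NeZero d] (hd : d ∣ N) :
    cuspVal N c (jdF N d hd) = -((herm N c ⟨d, hd⟩).expo N : ℤ) := by
  rw [cuspVal_apply, cuspSigma_jdF, hermiteSer_order _ _ (Nat.pos_of_ne_zero (NeZero.ne N)) hd]

theorem jdF_ne_zero {d : ℕ} [NeZero d] (hd : d ∣ N) : jdF N d hd ≠ 0 := by
  intro h
  have c : I0 N := QuotientGroup.mk 1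
  have h1 := cuspSigma_jdF N c hd
  rw [h, map_zero] at h1
  exact hermiteSer_ne_zero _ _ (Nat.pos_of_ne_zero (NeZero.ne N)) hd _ h1.symm

/-- `e = (N/d) A² ≤ N d` -/
theorem expo_le_mul {d : ℕ} {g : SL(2, ℤ)} (H : HermiteData d g) (hd0 : 0 < d) (hd : d ∣ N) :
    H.expo N ≤ d * N := by
  obtain ⟨e, rfl⟩ := hd
  rw [HermiteData.expo, Nat.mul_div_cancel_left _ hd0]
  have h1 : H.An ≤ d := Nat.le_of_dvd hd0 (H.An_dvd hd0)
  have h2 : H.An ^ 2 ≤ d ^ 2 := Nat.pow_le_pow_left h1 2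
  calc e * H.An ^ 2 ≤ e * d ^ 2 := Nat.mul_le_mul_left e h2
    _ = d * (d * e) := by ring

/-- `N ≤ d e = N A²` -/
theorem le_mul_expo {d : ℕ} {g : SL(2, ℤ)} (H : HermiteData d g) (hd0 : 0 < d) (hd : d ∣ N) :
    N ≤ d * H.expo N := by
  obtain ⟨e, rfl⟩ := hd
  rw [HermiteData.expo, Nat.mul_div_cancel_left _ hd0]
  have h1 : 1 ≤ H.An ^ 2 := Nat.one_le_pow _ _ H.An_pos
  calc d * e = d * (e * 1) := by ring
    _ ≤ d * (e * H.An ^ 2) := Nat.mul_le_mul_left d (Nat.mul_le_mul_left e h1)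

/-- **`j_d / j^d` is regular at all cusps** -/
theorem regOver_jdF_div_pow {d : ℕ} [NeZero d] (hd : d ∣ N) :
    RegOver Kbar (jF N)⁻¹ (jdF N d hd / jF N ^ d) := by
  apply regOver_inv_jF_of_order_nonneg
  intro c
  have hj := jF_ne_zero N
  have hjd := jdF_ne_zero N hd
  have h := (cuspVal N c).map_div hjd (pow_ne_zero d hj)
  rw [(cuspVal N c).map_pow hj, cuspVal_jF, cuspVal_jdF] at h
  rw [← cuspVal_apply, h]
  have h1 := expo_le_mul N (herm N c ⟨d, hd⟩) (Nat.pos_of_ne_zero (NeZero.ne d)) hd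
  have h2 : ((herm N c ⟨d, hd⟩).expo N : ℤ) ≤ (d : ℤ) * (N : ℤ) := by exact_mod_cast h1
  rw [mul_neg]
  linarith

/-- **`j / j_d^d` is regular at all cusps** -/
theorem regOver_jF_div_pow {d : ℕ} [NeZero d] (hd : d ∣ N) :
    RegOver Kbar (jF N)⁻¹ (jF N / jdF N d hd ^ d) := by
  apply regOver_inv_jF_of_order_nonneg
  intro c
  have hj := jF_ne_zero N
  have hjd := jdF_ne_zero N hd
  have h := (cuspVal N c).map_div hj (pow_ne_zero d hjd)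
  rw [(cuspVal N c).map_pow hjd, cuspVal_jF, cuspVal_jdF] at h
  rw [← cuspVal_apply, h]
  have h1 := le_mul_expo N (herm N c ⟨d, hd⟩) (Nat.pos_of_ne_zero (NeZero.ne d)) hd
  have h2 : (N : ℤ) ≤ (d : ℤ) * ((herm N c ⟨d, hd⟩).expo N : ℤ) := by exact_mod_cast h1
  rw [mul_neg]
  linarith

end Orders

/-! ### abstract reduction calculus: a "Kronecker pair" `(a, b)` with `red b = (red a)^q` -/

section Abstract

variable {K F k Ft : Type*} [Field K] [Field F] [Algebra K F] [Field k] [Field Ft] [Algebra k Ft]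
  (R : RedData K F k Ft)

theorem inv_mem_of_red_ne_zero {x : F} (hx : x ∈ R.Rw) (h : R.red ⟨x, hx⟩ ≠ 0) : x⁻¹ ∈ R.Rw := by
  have h1 : (⟨x, hx⟩ : R.Rw) ∉ IsLocalRing.maximalIdeal R.Rw := fun hm =>
    h ((R.red_eq_zero_iff _).mpr hm)
  have h2 : IsUnit (⟨x, hx⟩ : R.Rw) := IsLocalRing.notMem_maximalIdeal.mp h1
  obtain ⟨u, hu⟩ := h2
  have h3 : ((u⁻¹ : R.Rwˣ) : R.Rw) * ⟨x, hx⟩ = 1 := by rw [← hu]; exact u.inv_mul
  have h4 : (((u⁻¹ : R.Rwˣ) : R.Rw) : F) * x = 1 := by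
    have := congrArg (fun y : R.Rw => (y : F)) h3
    simpa using this
  have hx0 : x ≠ 0 := fun h0 => by rw [h0, mul_zero] at h4; exact zero_ne_one h4
  have h5 : x⁻¹ = (((u⁻¹ : R.Rwˣ) : R.Rw) : F) := by
    rw [← mul_one x⁻¹, ← h4]; field_simp
  rw [h5]
  exact ((u⁻¹ : R.Rwˣ) : R.Rw).2

theorem red_inv_of_ne_zero {x : F} (hx : x ∈ R.Rw) (hxi : x⁻¹ ∈ R.Rw)
    (h : R.red ⟨x, hx⟩ ≠ 0) : R.red ⟨x⁻¹, hxi⟩ = (R.red ⟨x, hx⟩)⁻¹ := by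
  have hx0 : x ≠ 0 := fun h0 => h (by
    have : (⟨x, hx⟩ : R.Rw) = 0 := Subtype.ext h0
    rw [this, map_zero])
  have h1 : (⟨x⁻¹, hxi⟩ : R.Rw) * ⟨x, hx⟩ = 1 := Subtype.ext (inv_mul_cancel₀ hx0)
  have h2 := congrArg R.red h1
  rw [map_mul, map_one] at h2
  exact eq_inv_of_mul_eq_one_left h2

theorem div_mem_of_red_ne_zero {x y : F} (hx : x ∈ R.Rw) (hy : y ∈ R.Rw)
    (h : R.red ⟨y, hy⟩ ≠ 0) : x / y ∈ R.Rw := by
  rw [div_eq_mul_inv]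
  exact R.Rw.mul_mem _ _ hx (inv_mem_of_red_ne_zero R hy h)

theorem red_div_of_ne_zero {x y : F} (hx : x ∈ R.Rw) (hy : y ∈ R.Rw)
    (h : R.red ⟨y, hy⟩ ≠ 0) (hxy : x / y ∈ R.Rw) :
    R.red ⟨x / y, hxy⟩ = R.red ⟨x, hx⟩ / R.red ⟨y, hy⟩ := by
  have hyi := inv_mem_of_red_ne_zero R hy h
  have h1 : (⟨x / y, hxy⟩ : R.Rw) = ⟨x, hx⟩ * ⟨y⁻¹, hyi⟩ := Subtype.ext (div_eq_mul_inv x y)
  rw [h1, map_mul, red_inv_of_ne_zero R hy hyi h, div_eq_mul_inv]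

theorem red_pow_mk {x : F} (hx : x ∈ R.Rw) (n : ℕ) (hxn : x ^ n ∈ R.Rw) :
    R.red ⟨x ^ n, hxn⟩ = R.red ⟨x, hx⟩ ^ n := by
  have h1 : (⟨x ^ n, hxn⟩ : R.Rw) = ⟨x, hx⟩ ^ n := Subtype.ext rfl
  rw [h1, map_pow]

theorem red_one_sub_mk {x : F} (hx : x ∈ R.Rw) (h1x : 1 - x ∈ R.Rw) :
    R.red ⟨1 - x, h1x⟩ = 1 - R.red ⟨x, hx⟩ := by
  have h1 : (⟨1 - x, h1x⟩ : R.Rw) = 1 - ⟨x, hx⟩ := Subtype.ext rfl
  rw [h1, map_sub, map_one]

variable {a b : F}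

/-- `b / a^q ∈ Rw` -/
theorem kron_div_mem (ha : a ∈ R.Rw) (hb : b ∈ R.Rw) (q : ℕ) (ha0 : R.red ⟨a, ha⟩ ≠ 0) :
    b / a ^ q ∈ R.Rw := by
  apply div_mem_of_red_ne_zero R hb (pow_mem ha q)
  rw [red_pow_mk R ha]
  exact pow_ne_zero q ha0

/-- `red (b / a^q) = 1` -/
theorem red_kron_div (ha : a ∈ R.Rw) (hb : b ∈ R.Rw) (q : ℕ) (ha0 : R.red ⟨a, ha⟩ ≠ 0)
    (hab : R.red ⟨b, hb⟩ = R.red ⟨a, ha⟩ ^ q) (h : b / a ^ q ∈ R.Rw) :
    R.red ⟨b / a ^ q, h⟩ = 1 := by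
  have h0 : R.red ⟨a ^ q, pow_mem ha q⟩ ≠ 0 := by
    rw [red_pow_mk R ha]; exact pow_ne_zero q ha0
  rw [red_div_of_ne_zero R hb (pow_mem ha q) h0, red_pow_mk R ha, hab,
    div_self (pow_ne_zero q ha0)]

/-- `a / b^q ∈ Rw` -/
theorem kron_div_mem' (ha : a ∈ R.Rw) (hb : b ∈ R.Rw) (q : ℕ) (ha0 : R.red ⟨a, ha⟩ ≠ 0)
    (hab : R.red ⟨b, hb⟩ = R.red ⟨a, ha⟩ ^ q) : a / b ^ q ∈ R.Rw := by
  apply div_mem_of_red_ne_zero R ha (pow_mem hb q)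
  rw [red_pow_mk R hb, hab]
  exact pow_ne_zero q (pow_ne_zero q ha0)

/-- `red (a / b^q) = ((red a)⁻¹)^(q² - 1)` -/
theorem red_kron_div' (ha : a ∈ R.Rw) (hb : b ∈ R.Rw) (q : ℕ) (ha0 : R.red ⟨a, ha⟩ ≠ 0)
    (hab : R.red ⟨b, hb⟩ = R.red ⟨a, ha⟩ ^ q) (hq : 0 < q) (h : a / b ^ q ∈ R.Rw) :
    R.red ⟨a / b ^ q, h⟩ = (R.red ⟨a, ha⟩)⁻¹ ^ (q ^ 2 - 1) := by
  have h0 : R.red ⟨b ^ q, pow_mem hb q⟩ ≠ 0 := by
    rw [red_pow_mk R hb, hab]; exact pow_ne_zero q (pow_ne_zero q ha0)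
  rw [red_div_of_ne_zero R ha (pow_mem hb q) h0, red_pow_mk R hb, hab, ← pow_mul,
    ← pow_two]
  obtain ⟨m, hm⟩ : ∃ m, q ^ 2 = m + 1 :=
    ⟨q ^ 2 - 1, (Nat.sub_add_cancel (Nat.one_le_pow _ _ hq)).symm⟩
  rw [hm, Nat.add_sub_cancel, pow_succ, inv_pow]
  field_simp

/-- the separator `e = 1 - b / a^q`: `e ∈ Rw` -/
theorem kron_sep_mem (ha : a ∈ R.Rw) (hb : b ∈ R.Rw) (q : ℕ) (ha0 : R.red ⟨a, ha⟩ ≠ 0) :
    1 - b / a ^ q ∈ R.Rw :=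
  sub_mem (one_mem _) (kron_div_mem R ha hb q ha0)

/-- `red e = 0` -/
theorem red_kron_sep (ha : a ∈ R.Rw) (hb : b ∈ R.Rw) (q : ℕ) (ha0 : R.red ⟨a, ha⟩ ≠ 0)
    (hab : R.red ⟨b, hb⟩ = R.red ⟨a, ha⟩ ^ q) (h : 1 - b / a ^ q ∈ R.Rw) :
    R.red ⟨1 - b / a ^ q, h⟩ = 0 := by
  rw [red_one_sub_mk R (kron_div_mem R ha hb q ha0), red_kron_div R ha hb q ha0 hab, sub_self]

/-- the swapped separator `e' = 1 - a / b^q`: `e' ∈ Rw` -/
theorem kron_sep_mem' (ha : a ∈ R.Rw) (hb : b ∈ R.Rw) (q : ℕ) (ha0 : R.red ⟨a, ha⟩ ≠ 0)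
    (hab : R.red ⟨b, hb⟩ = R.red ⟨a, ha⟩ ^ q) : 1 - a / b ^ q ∈ R.Rw :=
  sub_mem (one_mem _) (kron_div_mem' R ha hb q ha0 hab)

/-- `red e' = 1 - t^(q²-1)`, `t = (red a)⁻¹` -/
theorem red_kron_sep' (ha : a ∈ R.Rw) (hb : b ∈ R.Rw) (q : ℕ) (ha0 : R.red ⟨a, ha⟩ ≠ 0)
    (hab : R.red ⟨b, hb⟩ = R.red ⟨a, ha⟩ ^ q) (hq : 0 < q) (h : 1 - a / b ^ q ∈ R.Rw) :
    R.red ⟨1 - a / b ^ q, h⟩ = 1 - (R.red ⟨a, ha⟩)⁻¹ ^ (q ^ 2 - 1) := by
  rw [red_one_sub_mk R (kron_div_mem' R ha hb q ha0 hab), red_kron_div' R ha hb q ha0 hab hq]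

/-- `red e' = b(t)` with `b = 1 - X^(q²-1)` -/
theorem red_kron_sep'_eq_aeval (ha : a ∈ R.Rw) (hb : b ∈ R.Rw) (q : ℕ)
    (ha0 : R.red ⟨a, ha⟩ ≠ 0) (hab : R.red ⟨b, hb⟩ = R.red ⟨a, ha⟩ ^ q) (hq : 0 < q)
    (h : 1 - a / b ^ q ∈ R.Rw) :
    R.red ⟨1 - a / b ^ q, h⟩ =
      Polynomial.aeval (R.red ⟨a, ha⟩)⁻¹ ((1 : Polynomial k) - Polynomial.X ^ (q ^ 2 - 1)) := by
  rw [red_kron_sep' R ha hb q ha0 hab hq]
  simp

/-- `(red e')⁻¹` is regular over `t = 0` -/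
theorem regOver_inv_red_kron_sep' (ha : a ∈ R.Rw) (hb : b ∈ R.Rw) (q : ℕ)
    (ha0 : R.red ⟨a, ha⟩ ≠ 0) (hab : R.red ⟨b, hb⟩ = R.red ⟨a, ha⟩ ^ q) (hq : 1 < q)
    (h : 1 - a / b ^ q ∈ R.Rw) :
    RegOver k (R.red ⟨a, ha⟩)⁻¹ (R.red ⟨1 - a / b ^ q, h⟩)⁻¹ := by
  rw [red_kron_sep'_eq_aeval R ha hb q ha0 hab (by omega)]
  apply regOver_inv_aeval
  have h1 : q ^ 2 - 1 ≠ 0 := by
    have : 1 < q ^ 2 := Nat.one_lt_pow (by norm_num) hq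
    omega
  simp [h1]

/-- `red e' ≠ 0` if `red a` is transcendental -/
theorem red_kron_sep'_ne_zero (ha : a ∈ R.Rw) (hb : b ∈ R.Rw) (q : ℕ)
    (ha0 : R.red ⟨a, ha⟩ ≠ 0) (hab : R.red ⟨b, hb⟩ = R.red ⟨a, ha⟩ ^ q) (hq : 1 < q)
    (htr : Transcendental k (R.red ⟨a, ha⟩))
    (h : 1 - a / b ^ q ∈ R.Rw) : R.red ⟨1 - a / b ^ q, h⟩ ≠ 0 := by
  rw [red_kron_sep' R ha hb q ha0 hab (by omega)]
  intro h0
  have h1 : q ^ 2 - 1 ≠ 0 := by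
    have : 1 < q ^ 2 := Nat.one_lt_pow (by norm_num) hq
    omega
  have h2 : (R.red ⟨a, ha⟩) ^ (q ^ 2 - 1) = 1 := by
    have h3 : (R.red ⟨a, ha⟩)⁻¹ ^ (q ^ 2 - 1) = 1 := (sub_eq_zero.mp h0).symm
    rw [inv_pow, inv_eq_one] at h3
    exact h3
  apply htr
  refine ⟨Polynomial.X ^ (q ^ 2 - 1) - 1, ?_, by simp [h2]⟩
  exact Polynomial.X_pow_sub_C_ne_zero (Nat.pos_of_ne_zero h1) (1 : k)

end Abstract

/-! ### the Kronecker pair `(j, j_ℓ)` at the Gauss valuation `w₁` over `ℓ ∣ N` -/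

section Concrete

open Fermat.Agent.GJ.J1.Haupt Fermat.Agent.GK.Val.Degrees

variable (N : ℕ) [NeZero N] (ℓ : ℕ) [hℓ : Fact ℓ.Prime] [NeZero ℓ]
  (A : ValuationSubring (AlgebraicClosure ℚ))

local notation "𝕜" => IsLocalRing.ResidueField A

omit hℓ [NeZero ℓ] in
theorem transcendental_red_jF :
    Transcendental 𝕜 ((redDataBar N A).red ⟨jF N, jF_mem_Rw N A⟩) := by
  apply Fres.transcendental_of_coe
  rw [coe_red_jF]
  exact transcendental_jqModC _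

omit hℓ [NeZero ℓ] in
theorem red_jF_ne_zero : (redDataBar N A).red ⟨jF N, jF_mem_Rw N A⟩ ≠ 0 := fun h =>
  transcendental_red_jF N A (h ▸ isAlgebraic_zero)

/-- **Kronecker congruence in reduction form**: `red₁ (j_ℓ) = (red₁ j)^ℓ` -/
theorem red_jdF_eq_pow (hA : A.LiesOverPrime ℓ) (hd : ℓ ∣ N) :
    (redDataBar N A).red ⟨jdF N ℓ hd, jdF_mem_Rw N A hd⟩ =
      (redDataBar N A).red ⟨jF N, jF_mem_Rw N A⟩ ^ ℓ := by
  have : CharP 𝕜 ℓ := charP_residue A hℓ.out hA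
  apply Subtype.ext
  rw [coe_red_jdF, SubmonoidClass.coe_pow, coe_red_jF,
    Fermat.Agent.GJ.J3.QS.qExpand_jqModC_char ℓ]

/-- the cusp separator `e = 1 - j_ℓ / j^ℓ` -/
def sepE (hd : ℓ ∣ N) : FN N := 1 - jdF N ℓ hd / jF N ^ ℓ

/-- the swapped separator `e' = 1 - j / j_ℓ^ℓ` (`= W_ℓ e` for `ℓ ∥ N`) -/
def sepE' (hd : ℓ ∣ N) : FN N := 1 - jF N / jdF N ℓ hd ^ ℓ

omit hℓ in
/-- `e` is regular at all cusps -/
theorem regOver_sepE (hd : ℓ ∣ N) : RegOver Kbar (jF N)⁻¹ (sepE N ℓ hd) :=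
  (regOver_one _).sub (regOver_jdF_div_pow N hd)

omit hℓ in
/-- `e'` is regular at all cusps -/
theorem regOver_sepE' (hd : ℓ ∣ N) : RegOver Kbar (jF N)⁻¹ (sepE' N ℓ hd) :=
  (regOver_one _).sub (regOver_jF_div_pow N hd)

omit hℓ in
theorem jdF_div_pow_mem_Rw (hd : ℓ ∣ N) : jdF N ℓ hd / jF N ^ ℓ ∈ (redDataBar N A).Rw :=
  kron_div_mem (redDataBar N A) (jF_mem_Rw N A) (jdF_mem_Rw N A hd) ℓ (red_jF_ne_zero N A)

/-- **`red₁ (j_ℓ / j^ℓ) = 1`** -/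
theorem red_jdF_div_pow (hA : A.LiesOverPrime ℓ) (hd : ℓ ∣ N)
    (h : jdF N ℓ hd / jF N ^ ℓ ∈ (redDataBar N A).Rw) :
    (redDataBar N A).red ⟨jdF N ℓ hd / jF N ^ ℓ, h⟩ = 1 :=
  red_kron_div (redDataBar N A) (jF_mem_Rw N A) (jdF_mem_Rw N A hd) ℓ (red_jF_ne_zero N A)
    (red_jdF_eq_pow N ℓ A hA hd) h

theorem jF_div_pow_mem_Rw (hA : A.LiesOverPrime ℓ) (hd : ℓ ∣ N) :
    jF N / jdF N ℓ hd ^ ℓ ∈ (redDataBar N A).Rw :=
  kron_div_mem' (redDataBar N A) (jF_mem_Rw N A) (jdF_mem_Rw N A hd) ℓ (red_jF_ne_zero N A)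
    (red_jdF_eq_pow N ℓ A hA hd)

/-- **`red₁ (j / j_ℓ^ℓ) = (j~⁻¹)^(ℓ² - 1)`** -/
theorem red_jF_div_pow (hA : A.LiesOverPrime ℓ) (hd : ℓ ∣ N)
    (h : jF N / jdF N ℓ hd ^ ℓ ∈ (redDataBar N A).Rw) :
    (redDataBar N A).red ⟨jF N / jdF N ℓ hd ^ ℓ, h⟩ =
      ((redDataBar N A).red ⟨jF N, jF_mem_Rw N A⟩)⁻¹ ^ (ℓ ^ 2 - 1) :=
  red_kron_div' (redDataBar N A) (jF_mem_Rw N A) (jdF_mem_Rw N A hd) ℓ (red_jF_ne_zero N A)
    (red_jdF_eq_pow N ℓ A hA hd) hℓ.out.pos h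

omit hℓ in
theorem sepE_mem_Rw (hd : ℓ ∣ N) : sepE N ℓ hd ∈ (redDataBar N A).Rw :=
  kron_sep_mem (redDataBar N A) (jF_mem_Rw N A) (jdF_mem_Rw N A hd) ℓ (red_jF_ne_zero N A)

/-- **`red₁ e = 0`** -/
theorem red_sepE (hA : A.LiesOverPrime ℓ) (hd : ℓ ∣ N)
    (h : sepE N ℓ hd ∈ (redDataBar N A).Rw) : (redDataBar N A).red ⟨sepE N ℓ hd, h⟩ = 0 :=
  red_kron_sep (redDataBar N A) (jF_mem_Rw N A) (jdF_mem_Rw N A hd) ℓ (red_jF_ne_zero N A)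
    (red_jdF_eq_pow N ℓ A hA hd) h

theorem sepE'_mem_Rw (hA : A.LiesOverPrime ℓ) (hd : ℓ ∣ N) :
    sepE' N ℓ hd ∈ (redDataBar N A).Rw :=
  kron_sep_mem' (redDataBar N A) (jF_mem_Rw N A) (jdF_mem_Rw N A hd) ℓ (red_jF_ne_zero N A)
    (red_jdF_eq_pow N ℓ A hA hd)

/-- **`red₁ e' = 1 - (j~⁻¹)^(ℓ² - 1)`** -/
theorem red_sepE' (hA : A.LiesOverPrime ℓ) (hd : ℓ ∣ N)
    (h : sepE' N ℓ hd ∈ (redDataBar N A).Rw) :
    (redDataBar N A).red ⟨sepE' N ℓ hd, h⟩ =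
      1 - ((redDataBar N A).red ⟨jF N, jF_mem_Rw N A⟩)⁻¹ ^ (ℓ ^ 2 - 1) :=
  red_kron_sep' (redDataBar N A) (jF_mem_Rw N A) (jdF_mem_Rw N A hd) ℓ (red_jF_ne_zero N A)
    (red_jdF_eq_pow N ℓ A hA hd) hℓ.out.pos h

theorem red_sepE'_ne_zero (hA : A.LiesOverPrime ℓ) (hd : ℓ ∣ N)
    (h : sepE' N ℓ hd ∈ (redDataBar N A).Rw) : (redDataBar N A).red ⟨sepE' N ℓ hd, h⟩ ≠ 0 :=
  red_kron_sep'_ne_zero (redDataBar N A) (jF_mem_Rw N A) (jdF_mem_Rw N A hd) ℓ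
    (red_jF_ne_zero N A) (red_jdF_eq_pow N ℓ A hA hd) hℓ.out.one_lt
    (transcendental_red_jF N A) h

/-- `(red₁ e')⁻¹` is regular over `j~⁻¹ = 0` -/
theorem regOver_inv_red_sepE' (hA : A.LiesOverPrime ℓ) (hd : ℓ ∣ N)
    (h : sepE' N ℓ hd ∈ (redDataBar N A).Rw) :
    RegOver 𝕜 ((redDataBar N A).red ⟨jF N, jF_mem_Rw N A⟩)⁻¹
      ((redDataBar N A).red ⟨sepE' N ℓ hd, h⟩)⁻¹ :=
  regOver_inv_red_kron_sep' (redDataBar N A) (jF_mem_Rw N A) (jdF_mem_Rw N A hd) ℓ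
    (red_jF_ne_zero N A) (red_jdF_eq_pow N ℓ A hA hd) hℓ.out.one_lt h

/-- `(red₁ e')⁻¹` is regular over `(j~^ℓ)⁻¹ = 0` (the chart `red₁ (W_ℓ j⁻¹) = red₁ (j_ℓ)⁻¹` of the
second component) -/
theorem regOver_inv_red_sepE'_chart (hA : A.LiesOverPrime ℓ) (hd : ℓ ∣ N)
    (h : sepE' N ℓ hd ∈ (redDataBar N A).Rw) :
    RegOver 𝕜 ((redDataBar N A).red ⟨jdF N ℓ hd, jdF_mem_Rw N A hd⟩)⁻¹
      ((redDataBar N A).red ⟨sepE' N ℓ hd, h⟩)⁻¹ := by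
  have : IsAlgClosed 𝕜 := Fermat.Agent.GJ.ResidueAlgClosed.isAlgClosed_residueField A
  rw [red_jdF_eq_pow N ℓ A hA hd, ← inv_pow]
  exact (Fermat.Agent.GK.Red.regOver_pow_iff hℓ.out.pos).mpr (regOver_inv_red_sepE' N ℓ A hA hd h)

end Concrete

/-! ### transfer of regularity along algebra homs -/

section Transfer

variable {K F F' : Type*} [Field K] [Field F] [Field F'] [Algebra K F] [Algebra K F']

theorem RegFin.map_algHom (φ : F →ₐ[K] F') {s x : F} (h : RegFin K s x) :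
    RegFin K (φ s) (φ x) := by
  have hmem : ∀ y ∈ Algebra.adjoin K {s}, φ y ∈ Algebra.adjoin K {φ s} := by
    intro y hy
    have h1 : φ y ∈ (Algebra.adjoin K {s}).map φ := ⟨y, hy, rfl⟩
    rwa [AlgHom.map_adjoin, Set.image_singleton] at h1
  let ψ : Algebra.adjoin K {s} →+* Algebra.adjoin K {φ s} :=
    { toFun := fun y => ⟨φ y.1, hmem y.1 y.2⟩
      map_one' := Subtype.ext (map_one φ)
      map_mul' := fun a b => Subtype.ext (map_mul φ a.1 b.1)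
      map_zero' := Subtype.ext (map_zero φ)
      map_add' := fun a b => Subtype.ext (map_add φ a.1 b.1) }
  exact IsIntegral.map_of_comp_eq ψ φ.toRingHom (RingHom.ext fun y => rfl) h

theorem RegOver.map_algHom (φ : F →ₐ[K] F') {s x : F} (h : RegOver K s x) :
    RegOver K (φ s) (φ x) := by
  obtain ⟨b, hb, hbx⟩ := h
  refine ⟨b, hb, ?_⟩
  have := RegFin.map_algHom φ hbx
  rwa [map_mul, ← Polynomial.aeval_algHom_apply] at this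

end Transfer

/-! ### the Atkin–Lehner involution swaps `e` and `e'` -/

section Swap

open Fermat.Agent.GK.AL Fermat.Agent.GJ.J1.Haupt Fermat.Agent.GK.Val.Degrees

variable {q N : ℕ} [NeZero N] [NeZero q] (h : ExactDvd q N)

omit [NeZero q] in
theorem jdF_congr {d d' : ℕ} [NeZero d] [NeZero d'] (hdd : d = d') (hd : d ∣ N) (hd' : d' ∣ N) :
    jdF N d hd = jdF N d' hd' := by
  subst hdd
  rfl

/-- `W_q j = j_q` -/
theorem wAut_jF : wAut h (jF N) = jdF N q h.dvd := by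
  have h1 : jF N = gen N ⟨1, one_dvd N⟩ := by
    rw [jF, gen_eq_jdF]
  rw [h1, wAut_gen, gen_eq_jdF]
  apply jdF_congr
  rw [swapIdx_apply, swapFun_of_not_dvd h (d := ⟨1, one_dvd N⟩)
    (fun h1 => h.prime.one_lt.ne' (Nat.dvd_one.mp h1)), mul_one]

/-- `W_q j_q = j` -/
theorem wAut_jdF : wAut h (jdF N q h.dvd) = jF N := by
  rw [← wAut_jF h, wAut_wAut]

/-- **`W_q e = e'`** -/
theorem wAut_sepE : wAut h (sepE N q h.dvd) = sepE' N q h.dvd := by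
  rw [sepE, sepE', map_sub, map_one, map_div₀, map_pow, wAut_jF, wAut_jdF]

theorem wAut_sepE' : wAut h (sepE' N q h.dvd) = sepE N q h.dvd := by
  rw [← wAut_sepE h, wAut_wAut]

end Swap

/-! ### the pulled-back reduction datum `w ∘ σ` -/

section Comap

variable {K F k Ft : Type*} [Field K] [Field F] [Algebra K F] [Field k] [Field Ft] [Algebra k Ft]

/-- the ring isomorphism `Rw.comap σ ≃ Rw` induced by `σ` -/
def comapRingEquiv (V : ValuationSubring F) (σ : F ≃ₐ[K] F) :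
    V.comap (σ : F →+* F) ≃+* V where
  toFun x := ⟨σ x.1, x.2⟩
  invFun y := ⟨σ.symm y.1, by
    rw [ValuationSubring.mem_comap]
    show σ (σ.symm y.1) ∈ V
    rw [AlgEquiv.apply_symm_apply]; exact y.2⟩
  left_inv x := Subtype.ext (σ.symm_apply_apply x.1)
  right_inv y := Subtype.ext (σ.apply_symm_apply y.1)
  map_mul' x y := Subtype.ext (map_mul σ x.1 y.1)
  map_add' x y := Subtype.ext (map_add σ x.1 y.1)

/-- **the reduction datum `w ∘ σ`** for a `K`-automorphism `σ` of `F`: valuation ring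
`σ⁻¹(Rw)`, reduction `red ∘ σ`, same residue field -/
def comapAut (R : RedData K F k Ft) (σ : F ≃ₐ[K] F) : RedData K F k Ft where
  Rw := R.Rw.comap (σ : F →+* F)
  A := R.A
  mem_A_iff a := by
    rw [R.mem_A_iff, ValuationSubring.mem_comap]
    show _ ↔ σ (algebraMap K F a) ∈ R.Rw
    rw [AlgEquiv.commutes]
  red := R.red.comp (comapRingEquiv R.Rw σ : _ →+* _)
  red_surjective := R.red_surjective.comp (comapRingEquiv R.Rw σ).surjective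
  red_eq_zero_iff x := by
    show R.red (comapRingEquiv R.Rw σ x) = 0 ↔ _
    rw [R.red_eq_zero_iff, IsLocalRing.mem_maximalIdeal, IsLocalRing.mem_maximalIdeal,
      mem_nonunits_iff, mem_nonunits_iff, MulEquiv.isUnit_map]
  res := R.res
  res_surjective := R.res_surjective
  red_algebraMap a := by
    show R.red (comapRingEquiv R.Rw σ ⟨algebraMap K F (a : K), _⟩) = _
    rw [← R.red_algebraMap a]
    congr 1
    exact Subtype.ext (σ.commutes _)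

theorem mem_comapAut_Rw (R : RedData K F k Ft) (σ : F ≃ₐ[K] F) (x : F) :
    x ∈ (comapAut R σ).Rw ↔ σ x ∈ R.Rw := Iff.rfl

theorem comapAut_red (R : RedData K F k Ft) (σ : F ≃ₐ[K] F) (x : F)
    (hx : x ∈ (comapAut R σ).Rw) (hx' : σ x ∈ R.Rw) :
    (comapAut R σ).red ⟨x, hx⟩ = R.red ⟨σ x, hx'⟩ := rfl

end Comap

/-! ### K-CUSP: `e = 1 - j_q / j^q` is a separating element for `(w₁, w₂ = w₁ ∘ W_q)` -/

section Final

open Fermat.Agent.GK.AL Fermat.Agent.GJ.J1.Haupt Fermat.Agent.GK.Val.Degrees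

variable {q N : ℕ} [NeZero N] [NeZero q] (h : ExactDvd q N)
  (A : ValuationSubring (AlgebraicClosure ℚ))

local notation "𝕜" => IsLocalRing.ResidueField A

/-- **K-CUSP (generic second datum)**: for ANY reduction datum `R2` realising `w₂ = w₁ ∘ W_q`
(`hRw`, `hred`, residue fields compared by `ι`), the function `e = 1 - j_q / j^q` is regular at
all cusps, `red₁ e = 0`, and `red₂ e` is a unit at the cusps of the second component (chart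
`red₂ (j⁻¹) = ι (red₁ j_q)⁻¹`). -/
theorem isSeparating_sepE {Ft2 : Type*} [Field Ft2] [Algebra 𝕜 Ft2]
    (R2 : RedData Kbar (FN N) 𝕜 Ft2) (ι : FresBar N A →ₐ[𝕜] Ft2)
    (hRw : ∀ x, x ∈ R2.Rw ↔ wAut h x ∈ (redDataBar N A).Rw)
    (hred : ∀ x (hx : x ∈ R2.Rw) (hx' : wAut h x ∈ (redDataBar N A).Rw),
      R2.red ⟨x, hx⟩ = ι ((redDataBar N A).red ⟨wAut h x, hx'⟩))
    (hA : A.LiesOverPrime q) :
    IsSeparating (redDataBar N A) R2 (jF N)⁻¹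
      (ι ((redDataBar N A).red ⟨jdF N q h.dvd, jdF_mem_Rw N A h.dvd⟩)⁻¹) (sepE N q h.dvd) := by
  haveI : Fact q.Prime := ⟨h.prime⟩
  have hw : wAut h (sepE N q h.dvd) ∈ (redDataBar N A).Rw := by
    rw [wAut_sepE]; exact sepE'_mem_Rw N q A hA h.dvd
  have key : (redDataBar N A).red ⟨wAut h (sepE N q h.dvd), hw⟩ =
      (redDataBar N A).red ⟨sepE' N q h.dvd, sepE'_mem_Rw N q A hA h.dvd⟩ := by
    congr 1
    exact Subtype.ext (wAut_sepE h)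
  have h2 : sepE N q h.dvd ∈ R2.Rw := (hRw _).mpr hw
  refine ⟨sepE_mem_Rw N q A h.dvd, h2, regOver_sepE N q h.dvd, red_sepE N q A hA h.dvd _, ?_, ?_⟩
  · rw [hred _ h2 hw, key]
    exact (map_ne_zero ι.toRingHom).mpr (red_sepE'_ne_zero N q A hA h.dvd _)
  · rw [hred _ h2 hw, key, ← map_inv₀ ι]
    exact RegOver.map_algHom ι (regOver_inv_red_sepE'_chart N q A hA h.dvd _)

/-- the mirror statement: `e' = W_q e = 1 - j / j_q^q` has `red₂ e' = 0` and `red₁ e'` a unit at the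
cusps of the first component -/
theorem isSeparating_sepE' {Ft2 : Type*} [Field Ft2] [Algebra 𝕜 Ft2]
    (R2 : RedData Kbar (FN N) 𝕜 Ft2) (ι : FresBar N A →ₐ[𝕜] Ft2)
    (hRw : ∀ x, x ∈ R2.Rw ↔ wAut h x ∈ (redDataBar N A).Rw)
    (hred : ∀ x (hx : x ∈ R2.Rw) (hx' : wAut h x ∈ (redDataBar N A).Rw),
      R2.red ⟨x, hx⟩ = ι ((redDataBar N A).red ⟨wAut h x, hx'⟩))
    (hA : A.LiesOverPrime q) :
    IsSeparating R2 (redDataBar N A) (jF N)⁻¹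
      ((redDataBar N A).red ⟨jF N, jF_mem_Rw N A⟩)⁻¹ (sepE' N q h.dvd) := by
  haveI : Fact q.Prime := ⟨h.prime⟩
  have hw : wAut h (sepE' N q h.dvd) ∈ (redDataBar N A).Rw := by
    rw [wAut_sepE']; exact sepE_mem_Rw N q A h.dvd
  have key : (redDataBar N A).red ⟨wAut h (sepE' N q h.dvd), hw⟩ =
      (redDataBar N A).red ⟨sepE N q h.dvd, sepE_mem_Rw N q A h.dvd⟩ := by
    congr 1
    exact Subtype.ext (wAut_sepE' h)
  have h2 : sepE' N q h.dvd ∈ R2.Rw := (hRw _).mpr hw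
  refine ⟨h2, sepE'_mem_Rw N q A hA h.dvd, regOver_sepE' N q h.dvd, ?_,
    red_sepE'_ne_zero N q A hA h.dvd _, regOver_inv_red_sepE' N q A hA h.dvd _⟩
  rw [hred _ h2 hw, key, red_sepE N q A hA h.dvd, map_zero]

/-- **K-CUSP for the canonical second datum** `w₂ := w₁ ∘ W_q = comapAut (redDataBar N A) (wAut h)` -/
theorem isSeparating_sepE_comapAut (hA : A.LiesOverPrime q) :
    IsSeparating (redDataBar N A) (comapAut (redDataBar N A) (wAut h)) (jF N)⁻¹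
      ((redDataBar N A).red ⟨jdF N q h.dvd, jdF_mem_Rw N A h.dvd⟩)⁻¹ (sepE N q h.dvd) :=
  isSeparating_sepE h A (comapAut (redDataBar N A) (wAut h)) (AlgHom.id 𝕜 (FresBar N A))
    (fun _ => Iff.rfl) (fun _ _ _ => rfl) hA

theorem isSeparating_sepE'_comapAut (hA : A.LiesOverPrime q) :
    IsSeparating (comapAut (redDataBar N A) (wAut h)) (redDataBar N A) (jF N)⁻¹
      ((redDataBar N A).red ⟨jF N, jF_mem_Rw N A⟩)⁻¹ (sepE' N q h.dvd) :=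
  isSeparating_sepE' h A (comapAut (redDataBar N A) (wAut h)) (AlgHom.id 𝕜 (FresBar N A))
    (fun _ => Iff.rfl) (fun _ _ _ => rfl) hA

end Final

end Fermat.Agent.GK.Cusp
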